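/-
Program TW (S56), work package WP7 (flat local bound), chapter RAM (ramification side of
Fontaine's bound) — helper41.

INTERFACE FILE: Fontaine's property `(P_m)` in the abstract model of `q`-adic fields of
`PT/LOC/Interface12` (a `q`-adic field is a type `E` with
`[Field E] [Algebra ℚ_[q] E] [FiniteDimensional ℚ_[q] E]`, `𝒪_E = intRing q E`,
`snorm q E = ` the absolute value of `E` extending the `q`-adic absolute value of `ℚ_[q]`).

We use the MULTIPLICATIVE normalisation: instead of `m` (a valuation) the parameter is a real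
radius `r`; the ideal `𝔞^m = {x ∈ 𝒪_F : v(x) ≥ m}` is `ballIdeal q F r = {x ∈ 𝒪_F : ‖x‖ ≤ r}`.
With `v` normalised by `v(q) = 1` one has `r = q ^ (-m)`; e.g. Fontaine's condition
`m > n + 1/(p-1)` (`v(p) = 1`, group scheme killed by `p ^ n`) reads
`r ^ (p - 1) < p ^ (-(n (p - 1) + 1))`, independently of the base field.

* `ballIdeal q F r : Ideal (intRing q F)`, `mem_ballIdeal`;
* `PmHom q K L r : Prop` — **property `(P_m)`** for `L/K`: for every finite extension `F/K` and
  every ring homomorphism `η : 𝒪_L → 𝒪_F / {‖x‖ ≤ r}` compatible with `𝒪_K`, there is a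
  `K`-embedding `L → F`;
* `PmHom.mono` : `(P)` for `r` implies `(P)` for every smaller radius.
-/
import Mathlib
import Fermat.Agent.PT.LOC.Interface12
import Fermat.Agent.PT.LOC.Structure14
import Fermat.Agent.PT.LOC.StructureNorm14
import Fermat.Agent.PT.LOC.StructureTower27

set_option autoImplicit false

open scoped Fermat.Agent.PT.LOC.Interface12
open Fermat.Agent.PT.LOC.Interface12 Fermat.Agent.PT.LOC.Structure14
  Fermat.Agent.PT.LOC.StructureNorm14 Fermat.Agent.PT.LOC.StructureTower27

namespace Fermat.Agent.TW.RAM.Pm41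

noncomputable section

variable (q : ℕ) [Fact q.Prime]

section Ball

variable (F : Type) [Field F] [Algebra ℚ_[q] F] [FiniteDimensional ℚ_[q] F]

/-- The ideal `{x ∈ 𝒪_F : ‖x‖ ≤ r}` of the ring of integers of a `q`-adic field
(for `r < 0` the radius is replaced by `0`, so that this is always an ideal). -/
def ballIdeal (r : ℝ) : Ideal (intRing q F) where
  carrier := {x | snorm q F (x : F) ≤ max r 0}
  add_mem' := by
    intro a b ha hb
    exact le_trans (snorm_add_le_max q F (a : F) (b : F)) (max_le ha hb)
  zero_mem' := by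
    show snorm q F ((0 : intRing q F) : F) ≤ max r 0
    rw [ZeroMemClass.coe_zero, snorm_zero]
    exact le_max_right _ _
  smul_mem' := by
    intro c x hx
    show snorm q F ((c • x : intRing q F) : F) ≤ max r 0
    have hc : snorm q F (c : F) ≤ 1 := (mem_intRing_iff q F _).1 c.2
    have : ((c • x : intRing q F) : F) = (c : F) * (x : F) := rfl
    rw [this, snorm_mul]
    calc snorm q F (c : F) * snorm q F (x : F) ≤ 1 * snorm q F (x : F) :=
          mul_le_mul_of_nonneg_right hc (snorm_nonneg q F _)
      _ = snorm q F (x : F) := one_mul _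
      _ ≤ max r 0 := hx

theorem mem_ballIdeal' (r : ℝ) (x : intRing q F) :
    x ∈ ballIdeal q F r ↔ snorm q F (x : F) ≤ max r 0 := Iff.rfl

theorem mem_ballIdeal {r : ℝ} (hr : 0 ≤ r) (x : intRing q F) :
    x ∈ ballIdeal q F r ↔ snorm q F (x : F) ≤ r := by
  rw [mem_ballIdeal', max_eq_left hr]

theorem ballIdeal_mono {r s : ℝ} (h : r ≤ s) : ballIdeal q F r ≤ ballIdeal q F s := by
  intro x hx
  exact le_trans hx (max_le_max h le_rfl)

end Ball

section Pm

variable (K L : Type) [Field K] [Field L] [Algebra ℚ_[q] K] [Algebra ℚ_[q] L] [Algebra K L]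
  [IsScalarTower ℚ_[q] K L]

/-- **Fontaine's property `(P_m)`** for an extension `L/K` of `q`-adic fields, in multiplicative
normalisation (`r = ` radius): for every finite extension `F/K` and every ring homomorphism
`η : 𝒪_L → 𝒪_F / {‖x‖ ≤ r}` which is compatible with the structure maps from `𝒪_K`, there is a
`K`-algebra embedding `L → F`. -/
def PmHom (r : ℝ) : Prop :=
  ∀ (F : Type) [Field F] [Algebra ℚ_[q] F] [FiniteDimensional ℚ_[q] F] [Algebra K F]
    [IsScalarTower ℚ_[q] K F] (η : intRing q L →+* (intRing q F ⧸ ballIdeal q F r)),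
    (∀ a : intRing q K, η (intRingMap q K L a) =
      Ideal.Quotient.mk (ballIdeal q F r) (intRingMap q K F a)) →
    Nonempty (L →ₐ[K] F)

variable {q K L}

/-- `(P)` for the radius `s` implies `(P)` for every smaller radius `r ≤ s` (a homomorphism modulo
the smaller ideal induces one modulo the bigger ideal). -/
theorem PmHom.mono {r s : ℝ} (h : PmHom q K L s) (hrs : r ≤ s) : PmHom q K L r := by
  intro F _ _ _ _ _ η hη
  have hle : ballIdeal q F r ≤ ballIdeal q F s := ballIdeal_mono q F hrs
  refine h F ((Ideal.Quotient.factor hle).comp η) (fun a => ?_)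
  rw [RingHom.comp_apply, hη a]
  rfl

end Pm

end

end Fermat.Agent.TW.RAM.Pm41
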