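/-
Program TW (S56), work package WP7 (flat local bound), chapter RAM — helper41.

MONOGENICITY of totally ramified extensions, in the abstract model of `q`-adic fields of
`PT/LOC/Interface12`.  Let `L/K` be an extension of `q`-adic fields with residue degree `1`
(`resDeg q K L = 1`) and let `π` be a uniformizer of `L`.  Then `𝒪_L = 𝒪_K[π]`:

* `exists_sub_lt_one` : every `y ∈ 𝒪_L` is congruent modulo `𝔪_L` to an element of `𝒪_K`;
* `exists_eq_add_mul` : `y = a + π z` with `a ∈ 𝒪_K`, `z ∈ 𝒪_L`;
* `adjoin_eq_top` : `Algebra.adjoin 𝒪_K {π} = ⊤` (Nakayama);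
* `powerBasis` : the power basis `1, π, …, π^(n-1)` of `𝒪_L` over `𝒪_K`, `powerBasis_gen`,
  `powerBasis_dim : dim = [L : K]`;
* `minpoly_map_eq`, `natDegree_minpoly` : the minimal polynomial of `π` over `K` is the image of
  its minimal polynomial over `𝒪_K` and has degree `[L : K]`; `adjoin_simple_eq_top : K⟮π⟯ = ⊤`.
-/
import Mathlib
import Fermat.Agent.PT.LOC.Interface12
import Fermat.Agent.PT.LOC.Structure14
import Fermat.Agent.PT.LOC.StructureNorm14
import Fermat.Agent.PT.LOC.StructureTower27
import Fermat.Agent.PT.LOC.StructureTowerEF27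
import Fermat.Agent.PT.LOC.RootsUnity14
import Fermat.Agent.PT.LOC.Unram11

set_option autoImplicit false
set_option linter.unusedSectionVars false

open scoped Fermat.Agent.PT.LOC.Interface12 Fermat.Agent.PT.LOC.StructureTower27
open Fermat.Agent.PT.LOC.Interface12 Fermat.Agent.PT.LOC.Structure14
  Fermat.Agent.PT.LOC.StructureNorm14 Fermat.Agent.PT.LOC.StructureTower27
  Fermat.Agent.PT.LOC.StructureTowerEF27 Fermat.Agent.PT.LOC.RootsUnity14
  Fermat.Agent.PT.LOC.Unram11 Polynomial

namespace Fermat.Agent.TW.RAM.Monogenic41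

noncomputable section

variable (q : ℕ) [Fact q.Prime] (K L : Type) [Field K] [Field L] [Algebra ℚ_[q] K]
  [Algebra ℚ_[q] L] [Algebra K L] [IsScalarTower ℚ_[q] K L] [FiniteDimensional ℚ_[q] K]
  [FiniteDimensional ℚ_[q] L]

/-- If the residue degree is `1`, every integer of `L` is congruent modulo the maximal ideal to an
integer of `K`. -/
theorem exists_sub_lt_one (h : resDeg q K L = 1) (y : intRing q L) :
    ∃ a : intRing q K, snorm q L ((y : L) - algebraMap K L (a : K)) < 1 := by
  have hcard : Nat.card (resF q L) = Nat.card (resF q K) := by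
    rw [card_resF, card_resF, resCard_tower q K L, h, pow_one]
  have hinj : Function.Injective (algebraMap (resF q K) (resF q L)) :=
    (algebraMap (resF q K) (resF q L)).injective
  have hbij := Function.Injective.bijective_of_nat_card_le hinj hcard.le
  obtain ⟨abar, habar⟩ := hbij.2 (Ideal.Quotient.mk (mI q L) y)
  obtain ⟨a, rfl⟩ := Ideal.Quotient.mk_surjective abar
  refine ⟨a, ?_⟩
  have h1 : Ideal.Quotient.mk (mI q L) (algebraMap (intRing q K) (intRing q L) a) =
      Ideal.Quotient.mk (mI q L) y := habar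
  have h2 := (Ideal.Quotient.eq).1 h1.symm
  rw [mem_mI_iff_snorm] at h2
  exact h2

/-- `y = a + π z`. -/
theorem exists_eq_add_mul (h : resDeg q K L = 1) {π : L} (hπ : IsUniformizer q L π)
    (y : intRing q L) :
    ∃ (a : intRing q K) (z : intRing q L), (y : L) = algebraMap K L (a : K) + π * (z : L) := by
  obtain ⟨a, ha⟩ := exists_sub_lt_one q K L h y
  have hmem : (y : L) - algebraMap K L (a : K) ∈ intRing q L :=
    sub_mem y.2 (algebraMap_mem_intRing q K L a.2)
  have hmI : (⟨(y : L) - algebraMap K L (a : K), hmem⟩ : intRing q L) ∈ mI q L :=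
    (mem_mI_iff_snorm q L _).2 ha
  have hz := mul_inv_mem_of_mem_mI q L hπ _ hmI
  refine ⟨a, ⟨((y : L) - algebraMap K L (a : K)) * π⁻¹, hz⟩, ?_⟩
  have hπ0 : π ≠ 0 := hπ.2.1
  show (y : L) = algebraMap K L (a : K) + π * (((y : L) - algebraMap K L (a : K)) * π⁻¹)
  field_simp
  ring

/-- The uniformizer `π` as an element of `𝒪_L`. -/
abbrev unifInt {π : L} (hπ : IsUniformizer q L π) : intRing q L := ⟨π, hπ.1⟩

/-- `y = a + π z` inside `𝒪_L`. -/
theorem exists_eq_add_mul' (h : resDeg q K L = 1) {π : L} (hπ : IsUniformizer q L π)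
    (y : intRing q L) :
    ∃ (a : intRing q K) (z : intRing q L),
      y = algebraMap (intRing q K) (intRing q L) a + unifInt q L hπ * z := by
  obtain ⟨a, z, hz⟩ := exists_eq_add_mul q K L h hπ y
  exact ⟨a, z, Subtype.ext hz⟩

/-- `y = s + π ^ n z` with `s ∈ 𝒪_K[π]`. -/
theorem exists_adjoin_add_pow_mul (h : resDeg q K L = 1) {π : L} (hπ : IsUniformizer q L π)
    (n : ℕ) (y : intRing q L) :
    ∃ s ∈ Algebra.adjoin (intRing q K) ({unifInt q L hπ} : Set (intRing q L)),
      ∃ z : intRing q L, y = s + unifInt q L hπ ^ n * z := by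
  induction n with
  | zero => exact ⟨0, zero_mem _, y, by simp⟩
  | succ n ih =>
    obtain ⟨s, hs, z, hz⟩ := ih
    obtain ⟨a, z', hz'⟩ := exists_eq_add_mul' q K L h hπ z
    have hπS : unifInt q L hπ ∈
        Algebra.adjoin (intRing q K) ({unifInt q L hπ} : Set (intRing q L)) :=
      Algebra.subset_adjoin (Set.mem_singleton _)
    have haS : algebraMap (intRing q K) (intRing q L) a ∈
        Algebra.adjoin (intRing q K) ({unifInt q L hπ} : Set (intRing q L)) :=
      Subalgebra.algebraMap_mem _ a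
    refine ⟨s + unifInt q L hπ ^ n * algebraMap (intRing q K) (intRing q L) a,
      add_mem hs (mul_mem (pow_mem hπS n) haS), z', ?_⟩
    rw [hz, hz', pow_succ]
    ring

/-- `π ^ e` is divisible by (the image of) any uniformizer of `K` in `𝒪_L`, `e = ramIdx`. -/
theorem pow_ramIdx_mul_inv_mem {π : L} (hπ : IsUniformizer q L π) {ϖ : K}
    (hϖ : IsUniformizer q K ϖ) :
    π ^ ramIdx q K L * (algebraMap K L ϖ)⁻¹ ∈ intRing q L := by
  have hπ0 : π ≠ 0 := hπ.2.1
  have hϖ0 : ϖ ≠ 0 := hϖ.2.1
  have h1 : ord q L (Units.mk0 π hπ0) = 1 := (isUniformizer_iff_ord q L (Units.mk0 π hπ0)).1 hπ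
  have h2 : ord q K (Units.mk0 ϖ hϖ0) = 1 := (isUniformizer_iff_ord q K (Units.mk0 ϖ hϖ0)).1 hϖ
  have h3 := ord_algebraMap q K L (Units.mk0 ϖ hϖ0)
  rw [h2, mul_one] at h3
  have hu : ((Units.mk0 π hπ0 ^ ramIdx q K L *
      (Units.map (algebraMap K L : K →* L) (Units.mk0 ϖ hϖ0))⁻¹ : Lˣ) : L) =
      π ^ ramIdx q K L * (algebraMap K L ϖ)⁻¹ := by
    simp
  rw [← hu, mem_intRing_iff_ord, ord_mul, ord_pow, ord_inv, h1, h3]
  simp

/-- **Monogenicity**: if `L/K` has residue degree `1` and `π` is a uniformizer of `L`, then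
`𝒪_L = 𝒪_K[π]`. -/
theorem adjoin_eq_top (h : resDeg q K L = 1) {π : L} (hπ : IsUniformizer q L π) :
    Algebra.adjoin (intRing q K) ({unifInt q L hπ} : Set (intRing q L)) = ⊤ := by
  obtain ⟨ϖ, hϖ⟩ := exists_isUniformizer q K
  set S := Algebra.adjoin (intRing q K) ({unifInt q L hπ} : Set (intRing q L)) with hS
  have hle : (⊤ : Submodule (intRing q K) (intRing q L)) ≤ Subalgebra.toSubmodule S := by
    refine Submodule.le_of_le_smul_of_le_jacobson_bot (I := IsLocalRing.maximalIdeal (intRing q K))
      Module.Finite.fg_top (IsLocalRing.maximalIdeal_le_jacobson ⊥) ?_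
    intro y _
    obtain ⟨s, hs, z, hz⟩ := exists_adjoin_add_pow_mul q K L h hπ (ramIdx q K L) y
    rw [hz]
    refine Submodule.add_mem_sup hs ?_
    -- `π ^ e z = ϖ • z'`
    have hmem := pow_ramIdx_mul_inv_mem q K L hπ hϖ
    set w : intRing q L := ⟨π ^ ramIdx q K L * (algebraMap K L (ϖ : K))⁻¹, hmem⟩ with hw
    have hϖmem : (⟨(ϖ : K), hϖ.1⟩ : intRing q K) ∈ IsLocalRing.maximalIdeal (intRing q K) := by
      rw [mem_maximalIdeal_iff_snorm]
      exact snorm_uniformizer_lt_one q K _ hϖ
    have heq : unifInt q L hπ ^ ramIdx q K L * z =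
        (⟨(ϖ : K), hϖ.1⟩ : intRing q K) • (w * z) := by
      apply Subtype.ext
      have hϖ0 : algebraMap K L (ϖ : K) ≠ 0 := by
        simp
      show π ^ ramIdx q K L * (z : L) =
        algebraMap K L (ϖ : K) * ((π ^ ramIdx q K L * (algebraMap K L (ϖ : K))⁻¹) * (z : L))
      field_simp
    rw [heq]
    exact Submodule.smul_mem_smul hϖmem Submodule.mem_top
  apply Algebra.toSubmodule_eq_top.1
  exact top_le_iff.1 hle

/-! ### The power basis -/

section PowerBasis

variable (h : resDeg q K L = 1) {π : L} (hπ : IsUniformizer q L π)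

theorem isIntegral_unifInt : IsIntegral (intRing q K) (unifInt q L hπ) :=
  Algebra.IsIntegral.isIntegral _

/-- The power basis `1, π, …, π ^ (n - 1)` of `𝒪_L` over `𝒪_K`. -/
def powerBasis : PowerBasis (intRing q K) (intRing q L) :=
  PowerBasis.ofAdjoinEqTop' (isIntegral_unifInt q K L hπ) (adjoin_eq_top q K L h hπ)

@[simp] theorem powerBasis_gen : (powerBasis q K L h hπ).gen = unifInt q L hπ :=
  PowerBasis.ofAdjoinEqTop'_gen _ _

theorem powerBasis_dim_eq_natDegree :
    (powerBasis q K L h hπ).dim = (minpoly (intRing q K) (unifInt q L hπ)).natDegree :=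
  rfl

theorem powerBasis_dim : (powerBasis q K L h hπ).dim = Module.finrank K L := by
  have hfd : FiniteDimensional K L := finiteDimensional_tower q K L
  have hloc : IsLocalization
      (Algebra.algebraMapSubmonoid (intRing q L) (nonZeroDivisors (intRing q K))) L :=
    IsIntegralClosure.isLocalization (intRing q K) K L (intRing q L)
  let b := (powerBasis q K L h hπ).basis.localizationLocalization K
    (nonZeroDivisors (intRing q K)) L
  rw [Module.finrank_eq_card_basis b, Fintype.card_fin]

/-- The minimal polynomial of `π` over `K` comes from `𝒪_K[X]`. -/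
theorem minpoly_eq_map :
    minpoly K π = (minpoly (intRing q K) (unifInt q L hπ)).map (algebraMap (intRing q K) K) :=
  minpoly.isIntegrallyClosed_eq_field_fractions K L (isIntegral_unifInt q K L hπ)

include q h hπ in
theorem natDegree_minpoly : (minpoly K π).natDegree = Module.finrank K L := by
  rw [minpoly_eq_map q K L hπ,
    (minpoly.monic (isIntegral_unifInt q K L hπ)).natDegree_map,
    ← powerBasis_dim_eq_natDegree q K L h hπ, powerBasis_dim]

include q h hπ in
/-- `π` is a primitive element of `L/K`. -/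
theorem adjoin_simple_eq_top : IntermediateField.adjoin K {π} = ⊤ := by
  have hfd : FiniteDimensional K L := finiteDimensional_tower q K L
  exact (Field.primitive_element_iff_minpoly_natDegree_eq K π).2 (natDegree_minpoly q K L h hπ)

end PowerBasis

end

end Fermat.Agent.TW.RAM.Monogenic41
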