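/-
Program TW (S56), work package WP7 (flat local bound), chapter RAM, brick B4 — helper41.

THE UNRAMIFIED TWIST, abstract part (pure Galois theory + ultrametric estimates), in the model of
`q`-adic fields of `PT/LOC/Interface12`.  Let `K ⊆ L ⊆ M`, `g ∈ Gal(M/K)` extending `τ ∈ Gal(L/K)`,
`τ ^ ℓ = 1`, and `d ∈ 𝒪_M` with `g ^ ℓ d = d`, `∑_{j<ℓ} g^j d = 1`.  For `x ∈ 𝒪_L` put
`β = twistElt g ℓ d x = ∑_{j<ℓ} g^j (d x)`.  Then

* `twistElt_fixed` : `g β = β`;  `twistElt_mem_intRing` : `β ∈ 𝒪_M`;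
* `snorm_twistElt_sub_le` : `‖β - x‖ ≤ ‖τ x - x‖`  (`snorm_pow_apply_sub_le : ‖τ^j x - x‖ ≤ ‖τ x - x‖`);
* `isEmpty_algHom_fixedField` : if `τ ≠ 1` and `L/K` is normal, `L` does not embed over `K` into the
  fixed field of `g`;
* `snorm_aeval_le` : `‖P(b)‖ ≤ ∏_σ max c ‖σ x - x‖` if `‖b - x‖ ≤ c`, `P = ∏_σ (X - σ x)`;
* `exists_of_twistData` : the resulting pair `(F, β)`: a finite extension `F/K` with no
  `K`-embedding of `L` and an integer `β ∈ F` with
  `‖P(β)‖ ≤ ∏_σ max ‖τ x - x‖ ‖σ x - x‖`.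
The existence of `(M, g, d)` for totally ramified `L/K` is in `TwistData41`.
-/
import Mathlib
import Fermat.Agent.PT.LOC.Interface12
import Fermat.Agent.PT.LOC.Structure14
import Fermat.Agent.PT.LOC.StructureNorm14
import Fermat.Agent.PT.LOC.StructureTower27
import Fermat.Agent.PT.LOC.StructureTowerEF27
import Fermat.Agent.PT.LOC.RootsUnity14
import Fermat.Agent.PT.LOC.Unram11

set_option autoImplicit false
set_option linter.unusedSectionVars false

open scoped Fermat.Agent.PT.LOC.Interface12 Fermat.Agent.PT.LOC.StructureTower27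
open Fermat.Agent.PT.LOC.Interface12 Fermat.Agent.PT.LOC.Structure14
  Fermat.Agent.PT.LOC.StructureNorm14 Fermat.Agent.PT.LOC.StructureTower27
  Fermat.Agent.PT.LOC.StructureTowerEF27 Fermat.Agent.PT.LOC.RootsUnity14
  Fermat.Agent.PT.LOC.Unram11 Polynomial

namespace Fermat.Agent.TW.RAM.Twist41

noncomputable section

variable (q : ℕ) [Fact q.Prime]

/-! ### Telescoping -/

section Telescope

variable (K L : Type) [Field K] [Field L] [Algebra ℚ_[q] K] [Algebra ℚ_[q] L] [Algebra K L]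
  [IsScalarTower ℚ_[q] K L] [FiniteDimensional ℚ_[q] K] [FiniteDimensional ℚ_[q] L]

/-- `‖τ^j x - x‖ ≤ ‖τ x - x‖`. -/
theorem snorm_pow_apply_sub_le (τ : L ≃ₐ[K] L) (x : L) (j : ℕ) :
    snorm q L ((τ ^ j) x - x) ≤ snorm q L (τ x - x) := by
  induction j with
  | zero => simp [snorm_zero, snorm_nonneg]
  | succ j ih =>
    have h : (τ ^ (j + 1)) x - x = τ ((τ ^ j) x - x) + (τ x - x) := by
      rw [pow_succ', AlgEquiv.mul_apply, map_sub]
      ring
    rw [h]
    refine (snorm_add_le_max q L _ _).trans (max_le ?_ le_rfl)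
    rw [snorm_galois q K L τ]
    exact ih

end Telescope

/-! ### The twisted element -/

section Core

variable (K L M : Type) [Field K] [Field L] [Field M] [Algebra ℚ_[q] K] [Algebra ℚ_[q] L]
  [Algebra ℚ_[q] M] [Algebra K L] [Algebra K M] [Algebra L M] [IsScalarTower ℚ_[q] K L]
  [IsScalarTower ℚ_[q] K M] [IsScalarTower ℚ_[q] L M] [IsScalarTower K L M]
  [FiniteDimensional ℚ_[q] K] [FiniteDimensional ℚ_[q] L] [FiniteDimensional ℚ_[q] M]

variable {K L M}

/-- If `g` extends `τ`, then `g ^ j` extends `τ ^ j`. -/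
theorem pow_apply_algebraMap {g : M ≃ₐ[K] M} {τ : L ≃ₐ[K] L}
    (hgτ : ∀ y : L, g (algebraMap L M y) = algebraMap L M (τ y)) (j : ℕ) (y : L) :
    (g ^ j) (algebraMap L M y) = algebraMap L M ((τ ^ j) y) := by
  induction j generalizing y with
  | zero => simp
  | succ j ih => rw [pow_succ, pow_succ, AlgEquiv.mul_apply, AlgEquiv.mul_apply, hgτ, ih]

/-- The twisted element `β = ∑_{j < ℓ} g^j (d · x)`. -/
def twistElt (g : M ≃ₐ[K] M) (ℓ : ℕ) (d : M) (x : L) : M :=
  ∑ j ∈ Finset.range ℓ, (g ^ j) (d * algebraMap L M x)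

theorem twistElt_fixed {g : M ≃ₐ[K] M} {τ : L ≃ₐ[K] L}
    (hgτ : ∀ y : L, g (algebraMap L M y) = algebraMap L M (τ y)) {ℓ : ℕ} (hτℓ : τ ^ ℓ = 1)
    {d : M} (hgd : (g ^ ℓ) d = d) (x : L) : g (twistElt g ℓ d x) = twistElt g ℓ d x := by
  unfold twistElt
  rw [map_sum]
  have h1 : ∀ j : ℕ, g ((g ^ j) (d * algebraMap L M x)) = (g ^ (j + 1)) (d * algebraMap L M x) := by
    intro j
    rw [pow_succ', AlgEquiv.mul_apply]
  simp_rw [h1]
  have h2 := Finset.sum_range_succ' (fun j => (g ^ j) (d * algebraMap L M x)) ℓ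
  have h3 := Finset.sum_range_succ (fun j => (g ^ j) (d * algebraMap L M x)) ℓ
  have h4 : (g ^ ℓ) (d * algebraMap L M x) = (g ^ 0) (d * algebraMap L M x) := by
    rw [map_mul, hgd, pow_apply_algebraMap hgτ, hτℓ, pow_zero]
    simp
  rw [h3, h4] at h2
  exact (add_right_cancel h2).symm

include q in
theorem twistElt_mem_intRing (g : M ≃ₐ[K] M) (ℓ : ℕ) {d : M} (hd : d ∈ intRing q M) {x : L}
    (hx : x ∈ intRing q L) : twistElt g ℓ d x ∈ intRing q M := by
  unfold twistElt
  refine sum_mem (fun j _ => ?_)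
  rw [mem_intRing_galois_iff q K M (g ^ j)]
  exact mul_mem hd (algebraMap_mem_intRing q L M hx)

theorem snorm_twistElt_sub_le {g : M ≃ₐ[K] M} {τ : L ≃ₐ[K] L}
    (hgτ : ∀ y : L, g (algebraMap L M y) = algebraMap L M (τ y)) {ℓ : ℕ}
    {d : M} (hd : d ∈ intRing q M) (hsum : ∑ j ∈ Finset.range ℓ, (g ^ j) d = 1) (x : L) :
    snorm q M (twistElt g ℓ d x - algebraMap L M x) ≤ snorm q L (τ x - x) := by
  have h1 : twistElt g ℓ d x - algebraMap L M x =
      ∑ j ∈ Finset.range ℓ, (g ^ j) d * algebraMap L M ((τ ^ j) x - x) := by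
    have h3 : twistElt g ℓ d x =
        ∑ j ∈ Finset.range ℓ, (g ^ j) d * algebraMap L M ((τ ^ j) x) := by
      unfold twistElt
      refine Finset.sum_congr rfl (fun j _ => ?_)
      rw [map_mul, pow_apply_algebraMap hgτ]
    have h4 : ∑ j ∈ Finset.range ℓ, (g ^ j) d * algebraMap L M ((τ ^ j) x - x) =
        (∑ j ∈ Finset.range ℓ, (g ^ j) d * algebraMap L M ((τ ^ j) x)) -
          (∑ j ∈ Finset.range ℓ, (g ^ j) d) * algebraMap L M x := by
      rw [Finset.sum_mul, ← Finset.sum_sub_distrib]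
      refine Finset.sum_congr rfl (fun j _ => ?_)
      rw [map_sub]
      ring
    rw [h3, h4, hsum, one_mul]
  rw [h1]
  refine snorm_sum_le q M _ _ _ (snorm_nonneg q L _) (fun j _ => ?_)
  rw [snorm_mul, snorm_algebraMap_tower q L M]
  have hd1 : snorm q M ((g ^ j) d) ≤ 1 := by
    rw [snorm_galois q K M (g ^ j)]
    exact (mem_intRing_iff q M d).1 hd
  calc snorm q M ((g ^ j) d) * snorm q L ((τ ^ j) x - x)
      ≤ 1 * snorm q L ((τ ^ j) x - x) := mul_le_mul_of_nonneg_right hd1 (snorm_nonneg q L _)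
    _ = snorm q L ((τ ^ j) x - x) := one_mul _
    _ ≤ snorm q L (τ x - x) := snorm_pow_apply_sub_le q K L τ x j

include q in
/-- If `g` extends `τ ≠ 1`, then `L` does not embed (over `K`) into the fixed field of `g`. -/
theorem isEmpty_algHom_fixedField [Normal K L] {g : M ≃ₐ[K] M} {τ : L ≃ₐ[K] L}
    (hgτ : ∀ y : L, g (algebraMap L M y) = algebraMap L M (τ y)) (hτ1 : τ ≠ 1) :
    IsEmpty (L →ₐ[K] (IntermediateField.fixedField (Subgroup.zpowers g))) := by
  refine ⟨fun ψ => hτ1 ?_⟩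
  have hfd : FiniteDimensional K L := finiteDimensional_tower q K L
  set ψ' : L →ₐ[K] M := (IntermediateField.fixedField (Subgroup.zpowers g)).val.comp ψ with hψ'
  set σ₀ : L →ₐ[K] L := ψ'.restrictNormal L with hσ₀
  have h1 : ∀ y : L, algebraMap L M (σ₀ y) = ψ' y := by
    intro y
    have := AlgHom.restrictNormal_commutes ψ' L y
    rw [Algebra.algebraMap_self_apply] at this
    exact this
  have hbij : Function.Bijective σ₀ := Algebra.IsAlgebraic.algHom_bijective σ₀
  have h2 : ∀ y : L, g (ψ' y) = ψ' y := by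
    intro y
    have hmem : ψ' y ∈ IntermediateField.fixedField (Subgroup.zpowers g) := (ψ y).2
    rw [IntermediateField.mem_fixedField_iff] at hmem
    exact hmem g (Subgroup.mem_zpowers g)
  ext z
  obtain ⟨y, rfl⟩ := hbij.2 z
  have h3 := h2 y
  rw [← h1 y, hgτ] at h3
  exact (algebraMap L M).injective h3

theorem snorm_prod (E : Type) [Field E] [Algebra ℚ_[q] E] [FiniteDimensional ℚ_[q] E]
    {ι : Type*} (s : Finset ι) (f : ι → E) :
    snorm q E (∏ i ∈ s, f i) = ∏ i ∈ s, snorm q E (f i) := by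
  classical
  induction s using Finset.induction_on with
  | empty => simp [snorm_one]
  | insert a s ha ih => rw [Finset.prod_insert ha, Finset.prod_insert ha, snorm_mul, ih]

/-- The norm of the value at `b ∈ M` of the characteristic polynomial of `x ∈ L`, when `b` is
`c`-close to `x`. -/
theorem snorm_aeval_le [FiniteDimensional K L] (b : M) (x : L) {c : ℝ}
    (hc : snorm q M (b - algebraMap L M x) ≤ c) (P : K[X])
    (hP : P.map (algebraMap K L) = ∏ σ : L ≃ₐ[K] L, (X - C (σ x))) :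
    snorm q M (aeval b P) ≤ ∏ σ : L ≃ₐ[K] L, max c (snorm q L (σ x - x)) := by
  have h1 : aeval b P = ∏ σ : L ≃ₐ[K] L, (b - algebraMap L M (σ x)) := by
    rw [← Polynomial.eval_map_algebraMap, IsScalarTower.algebraMap_eq K L M,
      ← Polynomial.map_map, hP, Polynomial.map_prod, Polynomial.eval_prod]
    refine Finset.prod_congr rfl (fun σ _ => ?_)
    simp
  rw [h1, snorm_prod]
  refine Finset.prod_le_prod (fun σ _ => snorm_nonneg q M _) (fun σ _ => ?_)
  have h2 : b - algebraMap L M (σ x) =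
      (b - algebraMap L M x) + algebraMap L M (-(σ x - x)) := by
    rw [map_neg, map_sub]
    ring
  rw [h2]
  refine (snorm_add_le_max q M _ _).trans (max_le_max hc ?_)
  rw [snorm_algebraMap_tower q L M, snorm_neg]

theorem zpow_apply_eq_of_apply_eq {g : M ≃ₐ[K] M} {b : M} (hg : g b = b) {h : M ≃ₐ[K] M}
    (hh : h ∈ Subgroup.zpowers g) : h b = b := by
  have h1 : g ∈ MulAction.stabilizer (M ≃ₐ[K] M) b := by
    rw [MulAction.mem_stabilizer_iff]
    exact hg
  have h2 := (Subgroup.zpowers_le (H := MulAction.stabilizer (M ≃ₐ[K] M) b)).2 h1 hh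
  rw [MulAction.mem_stabilizer_iff] at h2
  exact h2

/-- **The twist, assuming the Galois data** `(M, g, d)`: there is a finite extension `F/K` (the
fixed field of `g`) into which `L` does not embed, and an integer `β` of `F` at which the
characteristic polynomial of `x` is small. -/
theorem exists_of_twistData [IsGalois K L] [FiniteDimensional K L] {g : M ≃ₐ[K] M}
    {τ : L ≃ₐ[K] L} (hgτ : ∀ y : L, g (algebraMap L M y) = algebraMap L M (τ y)) (hτ1 : τ ≠ 1)
    {ℓ : ℕ} (hτℓ : τ ^ ℓ = 1) {d : M} (hd : d ∈ intRing q M) (hgd : (g ^ ℓ) d = d)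
    (hsum : ∑ j ∈ Finset.range ℓ, (g ^ j) d = 1) {x : L} (hx : x ∈ intRing q L) :
    ∃ (F : Type) (_ : Field F) (_ : Algebra ℚ_[q] F) (_ : FiniteDimensional ℚ_[q] F)
      (_ : Algebra K F) (_ : IsScalarTower ℚ_[q] K F) (β : F),
      β ∈ intRing q F ∧ IsEmpty (L →ₐ[K] F) ∧
      ∀ P : K[X], P.map (algebraMap K L) = ∏ σ : L ≃ₐ[K] L, (X - C (σ x)) →
        snorm q F (aeval β P) ≤
          ∏ σ : L ≃ₐ[K] L, max (snorm q L (τ x - x)) (snorm q L (σ x - x)) := by
  set F₀ : IntermediateField K M := IntermediateField.fixedField (Subgroup.zpowers g) with hF₀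
  have htow : IsScalarTower ℚ_[q] F₀ M := IsScalarTower.of_algebraMap_eq (fun a => rfl)
  have hfdF : FiniteDimensional ℚ_[q] F₀ :=
    Module.Finite.of_injective ((IsScalarTower.toAlgHom ℚ_[q] F₀ M).toLinearMap)
      (algebraMap F₀ M).injective
  have hβmem : twistElt g ℓ d x ∈ F₀ := by
    rw [hF₀, IntermediateField.mem_fixedField_iff]
    intro h hh
    exact zpow_apply_eq_of_apply_eq (twistElt_fixed hgτ hτℓ hgd x) hh
  refine ⟨F₀, inferInstance, inferInstance, hfdF, inferInstance, inferInstance,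
    ⟨twistElt g ℓ d x, hβmem⟩, ?_, isEmpty_algHom_fixedField q hgτ hτ1, ?_⟩
  · rw [← mem_intRing_algHom_iff q F₀ M (IsScalarTower.toAlgHom ℚ_[q] F₀ M)]
    exact twistElt_mem_intRing q g ℓ hd hx
  · intro P hP
    rw [← snorm_algHom q F₀ M (IsScalarTower.toAlgHom ℚ_[q] F₀ M)]
    have h1 : (IsScalarTower.toAlgHom ℚ_[q] F₀ M) (aeval (⟨twistElt g ℓ d x, hβmem⟩ : F₀) P) =
        aeval (twistElt g ℓ d x) P :=
      (aeval_algebraMap_apply M (⟨twistElt g ℓ d x, hβmem⟩ : F₀) P).symm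
    rw [h1]
    exact snorm_aeval_le q (twistElt g ℓ d x) x (snorm_twistElt_sub_le q hgτ hd hsum x) P hP

end Core

end

end Fermat.Agent.TW.RAM.Twist41
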