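/-
Program TW (S56), work package WP7 (flat local bound), chapter RAM, brick B4 — helper41.

THE UNRAMIFIED TWIST, existence of the Galois data `(M, g, d)` consumed by `Twist41`.
`L/K` totally ramified Galois (`resDeg q K L = 1`), `ℓ` a prime, `τ ∈ Gal(L/K)`:

* `sum_eq_sum_range_pow` : in a group of prime order `ℓ`, `∑_σ f σ = ∑_{j<ℓ} f (a^j)` for `a ≠ 1`;
* `exists_trace_eq_one` : an unramified Galois extension has an integer of trace `1`;
* `isEmpty_algHom_of_isUnramified` : an unramified extension of degree `≥ 2` of `K` does not embed in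
  a totally ramified extension of `K` (`e·f`-count in towers);
* `exists_restrict_ne_one` : hence `Gal(M/L)` acts non-trivially on `K'` (`K'/K` unramified);
* `exists_twistData_of`, `exists_twistData` : `M` = splitting field of
  `minpoly(primitive element of L) · (X^(Q^ℓ-1) - 1)`, `K' = Eun q K ℓ` (PT/LOC), `g` extends `τ` and
  a generator `φ'` of `Gal(K'/K)`, `d` = image of an integer of `K'` of trace `1`:
  `g ^ ℓ d = d`, `∑_{j<ℓ} g^j d = 1`.
-/
import Mathlib
import Fermat.Agent.PT.LOC.Interface12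
import Fermat.Agent.PT.LOC.Structure14
import Fermat.Agent.PT.LOC.StructureNorm14
import Fermat.Agent.PT.LOC.StructureTower27
import Fermat.Agent.PT.LOC.StructureTowerEF27
import Fermat.Agent.PT.LOC.RootsUnity14
import Fermat.Agent.PT.LOC.UnramDef12
import Fermat.Agent.PT.LOC.Unram11
import Fermat.Agent.PT.LOC.ResNormTrace11
import Fermat.Agent.TW.RAM.Twist41

set_option autoImplicit false
set_option linter.unusedSectionVars false

open scoped Fermat.Agent.PT.LOC.Interface12 Fermat.Agent.PT.LOC.StructureTower27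
open Fermat.Agent.PT.LOC.Interface12 Fermat.Agent.PT.LOC.Structure14
  Fermat.Agent.PT.LOC.StructureNorm14 Fermat.Agent.PT.LOC.StructureTower27
  Fermat.Agent.PT.LOC.StructureTowerEF27 Fermat.Agent.PT.LOC.RootsUnity14
  Fermat.Agent.PT.LOC.UnramDef12 Fermat.Agent.PT.LOC.Unram11
  Fermat.Agent.PT.LOC.ResNormTrace11 Fermat.Agent.TW.RAM.Twist41 Polynomial

namespace Fermat.Agent.TW.RAM.TwistData41

noncomputable section

/-! ### Sums over a group of prime order -/

theorem sum_eq_sum_range_pow {G A : Type*} [Group G] [Fintype G] [AddCommMonoid A] {ℓ : ℕ}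
    (hℓ : ℓ.Prime) (hcard : Nat.card G = ℓ) {a : G} (ha : a ≠ 1) (f : G → A) :
    ∑ σ : G, f σ = ∑ j ∈ Finset.range ℓ, f (a ^ j) := by
  classical
  have : Fact ℓ.Prime := ⟨hℓ⟩
  have hmem : ∀ x : G, x ∈ Subgroup.zpowers a := fun x =>
    mem_zpowers_of_prime_card hcard ha
  have hord : orderOf a = ℓ := by
    rw [orderOf_eq_card_of_forall_mem_zpowers hmem, hcard]
  have himg := IsCyclic.image_range_orderOf hmem
  rw [hord] at himg
  rw [← himg, Finset.sum_image]
  intro i hi j hj hij
  have hi' : i < orderOf a := by rw [hord]; exact Finset.mem_range.1 hi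
  have hj' : j < orderOf a := by rw [hord]; exact Finset.mem_range.1 hj
  exact pow_injOn_Iio_orderOf hi' hj' hij

theorem pow_eq_one_of_prime_card {G : Type*} [Group G] [Finite G] {ℓ : ℕ}
    (hcard : Nat.card G = ℓ) (a : G) : a ^ ℓ = 1 := by
  rw [← hcard]
  exact pow_card_eq_one'

variable (q : ℕ) [Fact q.Prime]

/-! ### An integer of trace one in an unramified extension -/

section TraceOne

variable (E E' : Type) [Field E] [Field E'] [Algebra ℚ_[q] E] [Algebra ℚ_[q] E'] [Algebra E E']
  [IsScalarTower ℚ_[q] E E'] [FiniteDimensional ℚ_[q] E] [FiniteDimensional ℚ_[q] E']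

theorem snorm_eq_one_of_sub_one_lt {u : E} (hu : snorm q E (u - 1) < 1) : snorm q E u = 1 := by
  apply le_antisymm
  · have h := snorm_add_le_max q E (u - 1) 1
    rw [sub_add_cancel, snorm_one] at h
    exact h.trans (max_le hu.le le_rfl)
  · by_contra hlt
    rw [not_le] at hlt
    have h := snorm_sub_le_max q E u (u - 1)
    rw [sub_sub_cancel, snorm_one] at h
    have := h.trans_lt (max_lt hlt hu)
    exact lt_irrefl _ this

theorem exists_trace_eq_one [IsGalois E E'] (hun : IsUnramified q E E') :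
    ∃ d : E', d ∈ intRing q E' ∧ Algebra.trace E E' d = 1 := by
  obtain ⟨b, hb, hb1⟩ := exists_trace_sub_lt_one q E E' hun 1 (one_mem _)
  set u := Algebra.trace E E' b with hu
  have hu1 : snorm q E u = 1 := snorm_eq_one_of_sub_one_lt q E hb1
  have hu0 : u ≠ 0 := by
    intro h0
    rw [h0, snorm_zero] at hu1
    exact zero_ne_one hu1
  refine ⟨u⁻¹ • b, ?_, ?_⟩
  · rw [mem_intRing_iff, Algebra.smul_def]
    change snorm q E' (algebraMap E E' u⁻¹ * b) ≤ 1
    rw [snorm_mul, snorm_algebraMap_tower q E E', snorm_inv, hu1, inv_one, one_mul]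
    exact (mem_intRing_iff q E' b).1 hb
  · rw [map_smul, ← hu, smul_eq_mul, inv_mul_cancel₀ hu0]

end TraceOne

/-! ### Unramified extensions do not embed in totally ramified ones -/

section NoEmbed

variable (K L : Type) [Field K] [Field L] [Algebra ℚ_[q] K] [Algebra ℚ_[q] L] [Algebra K L]
  [IsScalarTower ℚ_[q] K L] [FiniteDimensional ℚ_[q] K] [FiniteDimensional ℚ_[q] L]
  (K' : Type) [Field K'] [Algebra ℚ_[q] K'] [Algebra K K'] [IsScalarTower ℚ_[q] K K']
  [FiniteDimensional ℚ_[q] K']

theorem isEmpty_algHom_of_isUnramified (h : resDeg q K L = 1) (hun : IsUnramified q K K')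
    (hdeg : 2 ≤ Module.finrank K K') : IsEmpty (K' →ₐ[K] L) := by
  refine ⟨fun j => ?_⟩
  let _ : Algebra K' L := j.toRingHom.toAlgebra
  have hj : ∀ x : K', algebraMap K' L x = j x := fun _ => rfl
  have : IsScalarTower K K' L := IsScalarTower.of_algebraMap_eq (fun a => by
    rw [hj, j.commutes])
  have : IsScalarTower ℚ_[q] K' L := IsScalarTower.of_algebraMap_eq (fun a => by
    rw [hj, IsScalarTower.algebraMap_apply ℚ_[q] K K', j.commutes,
      ← IsScalarTower.algebraMap_apply ℚ_[q] K L])
  have h1 := ramIdx_tower q K K' L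
  have h2 := (isUnramified_iff q K K').1 hun
  have h3 := ramIdx_mul_resDeg q K' L
  have h4 := ramIdx_mul_resDeg q K L
  have hfd1 : FiniteDimensional K K' := finiteDimensional_tower q K K'
  have hfd2 : FiniteDimensional K' L := finiteDimensional_tower q K' L
  have h5 := Module.finrank_mul_finrank K K' L
  have h6 := resDeg_pos q K' L
  have h7 : 0 < Module.finrank K' L := Module.finrank_pos
  rw [h, mul_one] at h4
  rw [h2, one_mul] at h1
  have h8 : Module.finrank K L ≤ Module.finrank K' L := by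
    rw [← h4, h1, ← h3]
    exact Nat.le_mul_of_pos_right _ h6
  have h9 : 2 * Module.finrank K' L ≤ Module.finrank K K' * Module.finrank K' L :=
    Nat.mul_le_mul_right _ hdeg
  omega

end NoEmbed

/-! ### The Galois data inside a given Galois extension `M ⊇ L, K'` -/

section Data

variable (K L M : Type) [Field K] [Field L] [Field M] [Algebra ℚ_[q] K] [Algebra ℚ_[q] L]
  [Algebra ℚ_[q] M] [Algebra K L] [Algebra K M] [Algebra L M] [IsScalarTower ℚ_[q] K L]
  [IsScalarTower ℚ_[q] K M] [IsScalarTower ℚ_[q] L M] [IsScalarTower K L M]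
  [FiniteDimensional ℚ_[q] K] [FiniteDimensional ℚ_[q] L] [FiniteDimensional ℚ_[q] M]
  (K' : Type) [Field K'] [Algebra ℚ_[q] K'] [Algebra K K'] [IsScalarTower ℚ_[q] K K']
  [FiniteDimensional ℚ_[q] K'] [Algebra K' M] [IsScalarTower K K' M]

/-- Some automorphism of `M` over `K` fixes `L` pointwise and moves `K'`, when `K'/K` is unramified
of degree `≥ 2` and `L/K` is totally ramified. -/
theorem exists_restrict_ne_one [IsGalois K M] [IsGalois K L] [IsGalois K K']
    (h : resDeg q K L = 1) (hun : IsUnramified q K K') (hdeg : 2 ≤ Module.finrank K K') :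
    ∃ h₀ : M ≃ₐ[K] M, AlgEquiv.restrictNormalHom L h₀ = 1 ∧
      AlgEquiv.restrictNormalHom K' h₀ ≠ 1 := by
  by_contra hcon0
  have hcon : ∀ h₀ : M ≃ₐ[K] M, AlgEquiv.restrictNormalHom L h₀ = 1 →
      AlgEquiv.restrictNormalHom K' h₀ = 1 := fun h₀ h1 =>
    by_contra (fun h2 => hcon0 ⟨h₀, h1, h2⟩)
  have hfdKM : FiniteDimensional K M := finiteDimensional_tower q K M
  have hfdLM : FiniteDimensional L M := finiteDimensional_tower q L M
  have hgalLM : IsGalois L M := IsGalois.tower_top_of_isGalois K L M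
  -- every element of `K'` lies in `L` (inside `M`)
  have hmem : ∀ x : K', algebraMap K' M x ∈ (IsScalarTower.toAlgHom K L M).range := by
    intro x
    have h1 : algebraMap K' M x ∈ (⊥ : IntermediateField L M) := by
      rw [IsGalois.mem_bot_iff_fixed]
      intro f
      have h2 : AlgEquiv.restrictNormalHom L (f.restrictScalars K) = 1 := by
        ext y
        apply (algebraMap L M).injective
        change algebraMap L M ((f.restrictScalars K).restrictNormal L y) = _
        rw [AlgEquiv.restrictNormal_commutes]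
        exact f.commutes y
      have h3 := hcon (f.restrictScalars K) h2
      have h4 := AlgEquiv.restrictNormal_commutes (f.restrictScalars K) K' x
      change algebraMap K' M ((AlgEquiv.restrictNormalHom K' (f.restrictScalars K)) x) = _ at h4
      rw [h3] at h4
      exact h4.symm
    obtain ⟨y, hy⟩ := IntermediateField.mem_bot.1 h1
    exact ⟨y, hy⟩
  -- hence `K'` embeds in `L`
  let ιL : L →ₐ[K] M := IsScalarTower.toAlgHom K L M
  let e : L ≃ₐ[K] ιL.range := AlgEquiv.ofInjective ιL ιL.injective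
  let j : K' →ₐ[K] L :=
    (e.symm : ιL.range →ₐ[K] L).comp ((IsScalarTower.toAlgHom K K' M).codRestrict ιL.range hmem)
  exact (isEmpty_algHom_of_isUnramified q K L K' h hun hdeg).false j

/-- **The Galois data of the twist** inside a Galois extension `M/K` containing the totally
ramified Galois extension `L/K` and an unramified Galois extension `K'/K` of prime degree `ℓ`. -/
theorem exists_twistData_of [IsGalois K M] [IsGalois K L] [IsGalois K K']
    (h : resDeg q K L = 1) (hun : IsUnramified q K K') {ℓ : ℕ} (hℓ : ℓ.Prime)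
    (hdeg : Module.finrank K K' = ℓ) (τ : L ≃ₐ[K] L) :
    ∃ (g : M ≃ₐ[K] M) (d : M), (∀ y : L, g (algebraMap L M y) = algebraMap L M (τ y)) ∧
      d ∈ intRing q M ∧ (g ^ ℓ) d = d ∧ ∑ j ∈ Finset.range ℓ, (g ^ j) d = 1 := by
  have hfdKM : FiniteDimensional K M := finiteDimensional_tower q K M
  have hfdKK' : FiniteDimensional K K' := finiteDimensional_tower q K K'
  have htow : IsScalarTower ℚ_[q] K' M := IsScalarTower.of_algebraMap_eq (fun a => by
    rw [IsScalarTower.algebraMap_apply ℚ_[q] K K', ← IsScalarTower.algebraMap_apply K K' M,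
      ← IsScalarTower.algebraMap_apply ℚ_[q] K M])
  -- the automorphism `g`
  obtain ⟨g₁, hg₁⟩ := AlgEquiv.restrictNormalHom_surjective (F := K) (K₁ := L) M τ
  obtain ⟨h₀, hh₀L, hh₀K'⟩ := exists_restrict_ne_one q K L M K' h hun (hdeg ▸ hℓ.two_le)
  obtain ⟨g, hgL, hgK'⟩ : ∃ g : M ≃ₐ[K] M, AlgEquiv.restrictNormalHom L g = τ ∧
      AlgEquiv.restrictNormalHom K' g ≠ 1 := by
    by_cases hc : AlgEquiv.restrictNormalHom K' g₁ = 1
    · refine ⟨g₁ * h₀, ?_, ?_⟩
      · rw [map_mul, hg₁, hh₀L, mul_one]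
      · rw [map_mul, hc, one_mul]
        exact hh₀K'
    · exact ⟨g₁, hg₁, hc⟩
  set φ' : K' ≃ₐ[K] K' := AlgEquiv.restrictNormalHom K' g with hφ'
  have hgτ : ∀ y : L, g (algebraMap L M y) = algebraMap L M (τ y) := by
    intro y
    rw [← hgL]
    exact (AlgEquiv.restrictNormal_commutes g L y).symm
  have hgφ : ∀ y : K', g (algebraMap K' M y) = algebraMap K' M (φ' y) := by
    intro y
    exact (AlgEquiv.restrictNormal_commutes g K' y).symm
  -- the element `d`
  obtain ⟨d₀, hd₀, htr⟩ := exists_trace_eq_one q K K' hun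
  have hcard : Nat.card (K' ≃ₐ[K] K') = ℓ := by
    rw [IsGalois.card_aut_eq_finrank, hdeg]
  have hsum₀ : ∑ j ∈ Finset.range ℓ, (φ' ^ j) d₀ = 1 := by
    have h1 := trace_eq_sum_automorphisms (K := K) (L := K') d₀
    rw [htr, map_one] at h1
    rw [h1]
    exact (sum_eq_sum_range_pow hℓ hcard hgK' (fun σ => σ d₀)).symm
  refine ⟨g, algebraMap K' M d₀, hgτ, algebraMap_mem_intRing q K' M hd₀, ?_, ?_⟩
  · rw [pow_apply_algebraMap hgφ, pow_eq_one_of_prime_card hcard φ', AlgEquiv.one_apply]
  · have h2 : ∀ j ∈ Finset.range ℓ, (g ^ j) (algebraMap K' M d₀) =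
        algebraMap K' M ((φ' ^ j) d₀) := fun j _ => pow_apply_algebraMap hgφ j d₀
    rw [Finset.sum_congr rfl h2, ← map_sum, hsum₀, map_one]

end Data

/-! ### Existence of the data -/

section Exists

variable (K L : Type) [Field K] [Field L] [Algebra ℚ_[q] K] [Algebra ℚ_[q] L] [Algebra K L]
  [IsScalarTower ℚ_[q] K L] [FiniteDimensional ℚ_[q] K] [FiniteDimensional ℚ_[q] L]

theorem unramPoly_ne_zero {ℓ : ℕ} (hℓ : ℓ ≠ 0) : unramPoly q K ℓ ≠ 0 := by
  have h1 : 1 < resCard q K ^ ℓ := Nat.one_lt_pow hℓ (one_lt_resCard q K)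
  exact X_pow_sub_C_ne_zero (by omega) 1

/-- **Existence of the Galois data of the twist**: for `L/K` totally ramified Galois and a prime
`ℓ`, there are a finite Galois extension `M/K` containing `L`, an element `g ∈ Gal(M/K)` extending
a given `τ ∈ Gal(L/K)`, and an integer `d` of `M` with `g ^ ℓ d = d` and `∑_{j<ℓ} g^j d = 1`. -/
theorem exists_twistData [IsGalois K L] (h : resDeg q K L = 1) {ℓ : ℕ} (hℓ : ℓ.Prime)
    (τ : L ≃ₐ[K] L) :
    ∃ (M : Type) (_ : Field M) (_ : Algebra ℚ_[q] M) (_ : Algebra K M) (_ : Algebra L M)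
      (_ : IsScalarTower ℚ_[q] K M) (_ : IsScalarTower ℚ_[q] L M) (_ : IsScalarTower K L M)
      (_ : FiniteDimensional ℚ_[q] M) (g : M ≃ₐ[K] M) (d : M),
      (∀ y : L, g (algebraMap L M y) = algebraMap L M (τ y)) ∧ d ∈ intRing q M ∧
        (g ^ ℓ) d = d ∧ ∑ j ∈ Finset.range ℓ, (g ^ j) d = 1 := by
  have hfdKL : FiniteDimensional K L := finiteDimensional_tower q K L
  let pb := Field.powerBasisOfFiniteOfSeparable K L
  set P : K[X] := minpoly K pb.gen with hP
  set U : K[X] := unramPoly q K ℓ with hU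
  set f : K[X] := P * U with hf
  have hP0 : P ≠ 0 := minpoly.ne_zero pb.isIntegral_gen
  have hU0 : U ≠ 0 := unramPoly_ne_zero q K hℓ.ne_zero
  have hf0 : f ≠ 0 := mul_ne_zero hP0 hU0
  have hfdM : FiniteDimensional ℚ_[q] f.SplittingField :=
    FiniteDimensional.trans ℚ_[q] K f.SplittingField
  have hgalM : IsGalois K f.SplittingField := isGalois_of_isSplittingField q K f.SplittingField f
  have hsplit : (f.map (algebraMap K f.SplittingField)).Splits := SplittingField.splits f
  have hf0' : f.map (algebraMap K f.SplittingField) ≠ 0 :=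
    (Polynomial.map_ne_zero_iff (algebraMap K f.SplittingField).injective).2 hf0
  have hPs : (P.map (algebraMap K f.SplittingField)).Splits :=
    hsplit.of_dvd hf0' (Polynomial.map_dvd _ (dvd_mul_right P U))
  have hUs : (U.map (algebraMap K f.SplittingField)).Splits :=
    hsplit.of_dvd hf0' (Polynomial.map_dvd _ (dvd_mul_left U P))
  have hPdeg : (P.map (algebraMap K f.SplittingField)).degree ≠ 0 := by
    rw [Polynomial.degree_map]
    exact (minpoly.degree_pos pb.isIntegral_gen).ne'
  obtain ⟨y, hy⟩ := hPs.exists_eval_eq_zero hPdeg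
  have hy' : aeval y (minpoly K pb.gen) = 0 := by
    rw [← Polynomial.eval_map_algebraMap]
    exact hy
  let ι : L →ₐ[K] f.SplittingField := pb.lift y hy'
  let ιℓ : Eun q K ℓ →ₐ[K] f.SplittingField := EunLift q K ℓ f.SplittingField hUs
  let _ : Algebra L f.SplittingField := ι.toRingHom.toAlgebra
  let _ : Algebra (Eun q K ℓ) f.SplittingField := ιℓ.toRingHom.toAlgebra
  have hι : ∀ x : L, algebraMap L f.SplittingField x = ι x := fun _ => rfl
  have hιℓ : ∀ x : Eun q K ℓ, algebraMap (Eun q K ℓ) f.SplittingField x = ιℓ x := fun _ => rfl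
  have htow1 : IsScalarTower K L f.SplittingField :=
    IsScalarTower.of_algebraMap_eq (fun a => by rw [hι, ι.commutes])
  have htow2 : IsScalarTower ℚ_[q] L f.SplittingField :=
    IsScalarTower.of_algebraMap_eq (fun a => by
      rw [hι, IsScalarTower.algebraMap_apply ℚ_[q] K L, ι.commutes,
        ← IsScalarTower.algebraMap_apply ℚ_[q] K f.SplittingField])
  have htow3 : IsScalarTower K (Eun q K ℓ) f.SplittingField :=
    IsScalarTower.of_algebraMap_eq (fun a => by rw [hιℓ, ιℓ.commutes])
  obtain ⟨hdeg, hun, -⟩ := unramSplittingStatement q K (Eun q K ℓ) ℓ hℓ.pos inferInstance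
  obtain ⟨g, d, h1, h2, h3, h4⟩ :=
    exists_twistData_of q K L f.SplittingField (Eun q K ℓ) h hun hℓ hdeg τ
  exact ⟨f.SplittingField, inferInstance, inferInstance, inferInstance, inferInstance,
    inferInstance, htow2, htow1, hfdM, g, d, h1, h2, h3, h4⟩

end Exists

end

end Fermat.Agent.TW.RAM.TwistData41
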