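/-
Program TW (S56), work package WP7 (flat local bound), chapter RAM, brick B4 — helper41.

FONTAINE'S PROPOSITION 1.5 (ii), SHARP FORM, totally ramified case
(J.-M. Fontaine, "Il n'y a pas de variété abélienne sur ℤ", 1985: `(P_m) ⇒ m > u_{L/K}`),
in the model of `q`-adic fields of `PT/LOC/Interface12`, multiplicative normalisation (`Pm41`).

* `minpoly_map_eq_prod` : for a primitive element `x` of a finite Galois extension,
  `minpoly K x = ∏_σ (X - σ x)` (over `L`);
* `exists_twist` : the unramified twist (`TwistData41` + `Twist41`);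
* `PmHom.lt_prod_of_pow_prime_eq_one`, `PmHom.lt_prod` : **the theorem**: `L/K` totally ramified
  Galois, `π` a uniformizer of `L`, `τ ≠ 1`:
    `PmHom q K L r → r < ∏_{σ ∈ Gal(L/K)} max ‖τ π - π‖ ‖σ π - π‖`.
  No slack, no Eisenstein perturbation, no Herbrand theory.  The right hand side is
  `D.upper τ` for `D = HerbrandField90.lowerIndexOf` (helper90) with `x = π`.
-/
import Mathlib
import Fermat.Agent.TW.RAM.Pm41
import Fermat.Agent.TW.RAM.Monogenic41
import Fermat.Agent.TW.RAM.PmPoly41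
import Fermat.Agent.TW.RAM.Twist41
import Fermat.Agent.TW.RAM.TwistData41

set_option autoImplicit false
set_option linter.unusedSectionVars false

open scoped Fermat.Agent.PT.LOC.Interface12 Fermat.Agent.PT.LOC.StructureTower27
open Fermat.Agent.PT.LOC.Interface12 Fermat.Agent.PT.LOC.Structure14
  Fermat.Agent.PT.LOC.StructureNorm14 Fermat.Agent.PT.LOC.StructureTower27
  Fermat.Agent.PT.LOC.StructureTowerEF27 Fermat.Agent.PT.LOC.RootsUnity14
  Fermat.Agent.PT.LOC.Unram11 Polynomial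
  Fermat.Agent.TW.RAM.Pm41 Fermat.Agent.TW.RAM.Monogenic41 Fermat.Agent.TW.RAM.PmPoly41
  Fermat.Agent.TW.RAM.Twist41 Fermat.Agent.TW.RAM.TwistData41

namespace Fermat.Agent.TW.RAM.Fontaine41

noncomputable section

/-! ### The minimal polynomial of a primitive element of a Galois extension -/

theorem minpoly_map_eq_prod {K L : Type*} [Field K] [Field L] [Algebra K L] [FiniteDimensional K L]
    [IsGalois K L] {x : L} (hx : IntermediateField.adjoin K {x} = ⊤) :
    (minpoly K x).map (algebraMap K L) = ∏ σ : L ≃ₐ[K] L, (X - C (σ x)) := by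
  classical
  have hint : IsIntegral K x := IsIntegral.of_finite K x
  obtain ⟨g, hg1, hg2, hg3⟩ := Polynomial.lifts_and_natDegree_eq_and_monic
    (Algebra.IsInvariant.charpoly_mem_lifts K L (L ≃ₐ[K] L) x)
    (MulSemiringAction.monic_charpoly (L ≃ₐ[K] L) x)
  have hroot : aeval x g = 0 := by
    rw [← Polynomial.eval_map_algebraMap, hg1, MulSemiringAction.eval_charpoly]
  have hdvd : minpoly K x ∣ g := minpoly.dvd K x hroot
  have hdeg : g.natDegree ≤ (minpoly K x).natDegree := by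
    rw [hg2, (Field.primitive_element_iff_minpoly_natDegree_eq K x).1 hx,
      ← IsGalois.card_aut_eq_finrank, MulSemiringAction.charpoly_eq,
      Polynomial.natDegree_prod_of_monic _ _ (fun σ _ => monic_X_sub_C _)]
    simp [Nat.card_eq_fintype_card]
  have heq : g = minpoly K x :=
    Polynomial.eq_of_monic_of_dvd_of_natDegree_le (minpoly.monic hint) hg3 hdvd hdeg
  rw [← heq, hg1, MulSemiringAction.charpoly_eq]
  rfl

variable (q : ℕ) [Fact q.Prime] (K L : Type) [Field K] [Field L] [Algebra ℚ_[q] K]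
  [Algebra ℚ_[q] L] [Algebra K L] [IsScalarTower ℚ_[q] K L] [FiniteDimensional ℚ_[q] K]
  [FiniteDimensional ℚ_[q] L]

/-- **The unramified twist.**  `L/K` totally ramified Galois, `τ ≠ 1` of prime order `ℓ`,
`x ∈ 𝒪_L`: there is a finite extension `F/K` into which `L` does not embed over `K`, and an integer
`β ∈ F` at which the characteristic polynomial `P` of `x` satisfies
`‖P(β)‖ ≤ ∏_σ max ‖τ x - x‖ ‖σ x - x‖`. -/
theorem exists_twist [IsGalois K L] [FiniteDimensional K L] (h : resDeg q K L = 1)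
    {τ : L ≃ₐ[K] L} (hτ1 : τ ≠ 1) {ℓ : ℕ} (hℓ : ℓ.Prime) (hτℓ : τ ^ ℓ = 1) {x : L}
    (hx : x ∈ intRing q L) :
    ∃ (F : Type) (_ : Field F) (_ : Algebra ℚ_[q] F) (_ : FiniteDimensional ℚ_[q] F)
      (_ : Algebra K F) (_ : IsScalarTower ℚ_[q] K F) (β : F),
      β ∈ intRing q F ∧ IsEmpty (L →ₐ[K] F) ∧
      ∀ P : K[X], P.map (algebraMap K L) = ∏ σ : L ≃ₐ[K] L, (X - C (σ x)) →
        snorm q F (aeval β P) ≤
          ∏ σ : L ≃ₐ[K] L, max (snorm q L (τ x - x)) (snorm q L (σ x - x)) := by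
  obtain ⟨M, _, _, _, _, _, _, _, _, g, d, hgτ, hd, hgd, hsum⟩ := exists_twistData q K L h hℓ τ
  exact exists_of_twistData q hgτ hτ1 hτℓ hd hgd hsum hx

variable {q K L}

/-- **Fontaine's Proposition 1.5 (ii), sharp form, prime order case.** -/
theorem PmHom.lt_prod_of_pow_prime_eq_one [IsGalois K L] [FiniteDimensional K L] {r : ℝ}
    (hP : PmHom q K L r) (h : resDeg q K L = 1) {π : L} (hπ : IsUniformizer q L π)
    {τ : L ≃ₐ[K] L} (hτ1 : τ ≠ 1) {ℓ : ℕ} (hℓ : ℓ.Prime) (hτℓ : τ ^ ℓ = 1) :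
    r < ∏ σ : L ≃ₐ[K] L, max (snorm q L (τ π - π)) (snorm q L (σ π - π)) := by
  by_contra hle
  rw [not_lt] at hle
  have hpos : 0 ≤ ∏ σ : L ≃ₐ[K] L, max (snorm q L (τ π - π)) (snorm q L (σ π - π)) :=
    Finset.prod_nonneg (fun σ _ => le_max_of_le_left (snorm_nonneg q L _))
  have hr : 0 ≤ r := hpos.trans hle
  obtain ⟨F, _, _, _, _, _, β, hβ, hemp, hest⟩ := exists_twist q K L h hτ1 hℓ hτℓ hπ.1
  have hprod := minpoly_map_eq_prod (adjoin_simple_eq_top q K L h hπ)
  have hroot : snorm q F (aeval β (minpoly K π)) ≤ r := (hest _ hprod).trans hle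
  obtain ⟨ψ⟩ := PmHom.nonempty_algHom_of_root hP hr h hπ F β hβ hroot
  exact hemp.false ψ

/-- **Fontaine's Proposition 1.5 (ii), sharp form** (totally ramified case).  Let `L/K` be a
totally ramified finite Galois extension of `q`-adic fields, `π` a uniformizer of `L` and `τ ≠ 1`
in `Gal(L/K)`.  If `L/K` has property `(P)` for the radius `r`, then
`r < ∏_{σ ∈ Gal(L/K)} max ‖τ π - π‖ ‖σ π - π‖`.
(The right hand side is `c ^ Φ_{L/K}(i(τ))`, `c = ‖uniformizer of K‖`, i.e. the upper number of `τ`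
in Fontaine's numbering; for `τ` in the last ramification subgroup this says `m > u_{L/K}`.) -/
theorem PmHom.lt_prod [IsGalois K L] [FiniteDimensional K L] {r : ℝ}
    (hP : PmHom q K L r) (h : resDeg q K L = 1) {π : L} (hπ : IsUniformizer q L π)
    {τ : L ≃ₐ[K] L} (hτ1 : τ ≠ 1) :
    r < ∏ σ : L ≃ₐ[K] L, max (snorm q L (τ π - π)) (snorm q L (σ π - π)) := by
  have hn1 : orderOf τ ≠ 1 := fun h1 => hτ1 (orderOf_eq_one_iff.1 h1)
  have hn0 : 0 < orderOf τ := orderOf_pos τ
  have hℓ : (orderOf τ).minFac.Prime := Nat.minFac_prime hn1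
  have hdvd : (orderOf τ).minFac ∣ orderOf τ := Nat.minFac_dvd _
  set ℓ := (orderOf τ).minFac with hℓdef
  set m := orderOf τ / ℓ with hm
  have hmℓ : m * ℓ = orderOf τ := Nat.div_mul_cancel hdvd
  have hm0 : m ≠ 0 := by
    intro h0
    rw [h0, zero_mul] at hmℓ
    omega
  have hmlt : m < orderOf τ := Nat.div_lt_self hn0 hℓ.one_lt
  have hτ'1 : τ ^ m ≠ 1 := pow_ne_one_of_lt_orderOf hm0 hmlt
  have hτ'ℓ : (τ ^ m) ^ ℓ = 1 := by rw [← pow_mul, hmℓ, pow_orderOf_eq_one]
  refine (PmHom.lt_prod_of_pow_prime_eq_one hP h hπ hτ'1 hℓ hτ'ℓ).trans_le ?_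
  refine Finset.prod_le_prod (fun σ _ => le_max_of_le_left (snorm_nonneg q L _)) (fun σ _ => ?_)
  exact max_le_max (snorm_pow_apply_sub_le q K L τ π m) le_rfl

end

end Fermat.Agent.TW.RAM.Fontaine41
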