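/-
Program TW (S56), work package WP7 (flat local bound), chapter RAM — helper41.

POLYNOMIAL FORM of Fontaine's property `(P_m)` (`Pm41.PmHom`) for totally ramified `L/K`
(`resDeg q K L = 1`), `π` a uniformizer of `L`, `P = minpoly K π` (an Eisenstein polynomial):

* `coe_aeval_int` : evaluation of polynomials over `𝒪_K` at integers of `F`;
* `exists_hom_of_root` : an integer `β` of `F` with `‖P(β)‖ ≤ r` defines a ring homomorphism
  `𝒪_L = 𝒪_K[π] → 𝒪_F / {‖x‖ ≤ r}`, `π ↦ β`, compatible with `𝒪_K`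
  (`Monogenic41.powerBasis` + `PowerBasis.lift`);
* `PmHom.nonempty_algHom_of_root` : `(P)` for the radius `r` ⇒ every such `F` receives a
  `K`-embedding of `L`.
-/
import Mathlib
import Fermat.Agent.TW.RAM.Pm41
import Fermat.Agent.TW.RAM.Monogenic41

set_option autoImplicit false
set_option linter.unusedSectionVars false

open scoped Fermat.Agent.PT.LOC.Interface12 Fermat.Agent.PT.LOC.StructureTower27
open Fermat.Agent.PT.LOC.Interface12 Fermat.Agent.PT.LOC.Structure14
  Fermat.Agent.PT.LOC.StructureNorm14 Fermat.Agent.PT.LOC.StructureTower27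
  Fermat.Agent.PT.LOC.StructureTowerEF27 Fermat.Agent.PT.LOC.RootsUnity14
  Fermat.Agent.PT.LOC.Unram11 Polynomial
  Fermat.Agent.TW.RAM.Pm41 Fermat.Agent.TW.RAM.Monogenic41

namespace Fermat.Agent.TW.RAM.PmPoly41

noncomputable section

variable (q : ℕ) [Fact q.Prime] (K L : Type) [Field K] [Field L] [Algebra ℚ_[q] K]
  [Algebra ℚ_[q] L] [Algebra K L] [IsScalarTower ℚ_[q] K L] [FiniteDimensional ℚ_[q] K]
  [FiniteDimensional ℚ_[q] L]
  (F : Type) [Field F] [Algebra ℚ_[q] F] [FiniteDimensional ℚ_[q] F] [Algebra K F]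
  [IsScalarTower ℚ_[q] K F]

/-- The value in `F` of a polynomial over `𝒪_K` at an integer of `F`. -/
theorem coe_aeval_int (p : (intRing q K)[X]) (β : intRing q F) :
    ((aeval β p : intRing q F) : F) = aeval (β : F) (p.map (algebraMap (intRing q K) K)) := by
  rw [aeval_map_algebraMap]
  exact (aeval_algebraMap_apply F β p).symm

theorem exists_hom_of_root (h : resDeg q K L = 1) {π : L} (hπ : IsUniformizer q L π)
    (β : intRing q F) {r : ℝ} (hr : 0 ≤ r)
    (hβ : snorm q F (aeval (β : F) (minpoly K π)) ≤ r) :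
    ∃ η : intRing q L →+* (intRing q F ⧸ ballIdeal q F r),
      (∀ a : intRing q K, η (intRingMap q K L a) =
        Ideal.Quotient.mk (ballIdeal q F r) (intRingMap q K F a)) ∧
      η (unifInt q L hπ) = Ideal.Quotient.mk (ballIdeal q F r) β := by
  set pb := powerBasis q K L h hπ with hpb
  have hy : aeval (Ideal.Quotient.mk (ballIdeal q F r) β) (minpoly (intRing q K) pb.gen) = 0 := by
    rw [hpb, powerBasis_gen]
    have h1 : aeval (Ideal.Quotient.mk (ballIdeal q F r) β)
        (minpoly (intRing q K) (unifInt q L hπ)) =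
        Ideal.Quotient.mk (ballIdeal q F r) (aeval β (minpoly (intRing q K) (unifInt q L hπ))) :=
      aeval_algHom_apply (Ideal.Quotient.mkₐ (intRing q K) (ballIdeal q F r)) β _
    rw [h1, Ideal.Quotient.eq_zero_iff_mem, mem_ballIdeal q F hr, coe_aeval_int,
      ← minpoly_eq_map q K L hπ]
    exact hβ
  refine ⟨(pb.lift _ hy : intRing q L →+* _), fun a => ?_, ?_⟩
  · exact (pb.lift _ hy).commutes a
  · have hgen : unifInt q L hπ = pb.gen := (powerBasis_gen q K L h hπ).symm
    rw [hgen]
    exact pb.lift_gen _ hy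

variable {q K L}

/-- **Polynomial form of `(P_m)`** (for `L/K` with residue degree `1`, `π` a uniformizer of `L`):
if `(P)` holds for the radius `r`, then every finite extension `F/K` containing an integer `β`
with `‖P(β)‖ ≤ r`, `P` the minimal polynomial of `π` over `K`, receives a `K`-embedding of `L`. -/
theorem PmHom.nonempty_algHom_of_root {r : ℝ} (hP : PmHom q K L r) (hr : 0 ≤ r)
    (h : resDeg q K L = 1) {π : L} (hπ : IsUniformizer q L π)
    (F : Type) [Field F] [Algebra ℚ_[q] F] [FiniteDimensional ℚ_[q] F] [Algebra K F]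
    [IsScalarTower ℚ_[q] K F] (β : F) (hβ : β ∈ intRing q F)
    (hroot : snorm q F (aeval β (minpoly K π)) ≤ r) : Nonempty (L →ₐ[K] F) := by
  obtain ⟨η, hη, -⟩ := exists_hom_of_root q K L F h hπ ⟨β, hβ⟩ hr hroot
  exact hP F η hη

end

end Fermat.Agent.TW.RAM.PmPoly41
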