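/-
Program TW (S56), work package WP7 (flat local bound), chapter RAM, brick B4 — helper41.

FONTAINE'S PROPOSITION 1.5 (ii), SHARP FORM, IN TOWERS `K₁ ⊆ K ⊆ L`: `(P)` is assumed for `L/K₁`
(e.g. `K₁ = ℚ_p`), the conclusion is about `Gal(L/K)` for an intermediate field `K` over which `L`
is totally ramified (e.g. the inertia field).  No passage `(P)(L/K₁) ⇒ (P)(L/K)` is needed: the
field `F` produced by the unramified twist over `K` receives no ring homomorphism from `L` compatible
with `K₁`, because `L/K₁` is normal.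

* `not_exists_ringHom_fixedField` : tower version of `Twist41.isEmpty_algHom_fixedField`;
* `exists_mem_fixedField` : the twisted element as an integer of the fixed field, with its estimate;
* `PmHom.exists_ringHom_of_tower` : `(P)` for `L/K₁` applied to an extension `F` of `K`;
* `PmHom.lt_prod_of_tower` : **the theorem**:
    `PmHom q K₁ L r → resDeg q K L = 1 → τ ≠ 1 → r < ∏_{σ ∈ Gal(L/K)} max ‖τ π - π‖ ‖σ π - π‖`.
-/
import Mathlib
import Fermat.Agent.TW.RAM.Pm41
import Fermat.Agent.TW.RAM.Monogenic41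
import Fermat.Agent.TW.RAM.PmPoly41
import Fermat.Agent.TW.RAM.Twist41
import Fermat.Agent.TW.RAM.TwistData41
import Fermat.Agent.TW.RAM.Fontaine41

set_option autoImplicit false
set_option linter.unusedSectionVars false

open scoped Fermat.Agent.PT.LOC.Interface12 Fermat.Agent.PT.LOC.StructureTower27
open Fermat.Agent.PT.LOC.Interface12 Fermat.Agent.PT.LOC.Structure14
  Fermat.Agent.PT.LOC.StructureNorm14 Fermat.Agent.PT.LOC.StructureTower27
  Fermat.Agent.PT.LOC.StructureTowerEF27 Fermat.Agent.PT.LOC.RootsUnity14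
  Fermat.Agent.PT.LOC.Unram11 Polynomial
  Fermat.Agent.TW.RAM.Pm41 Fermat.Agent.TW.RAM.Monogenic41 Fermat.Agent.TW.RAM.PmPoly41
  Fermat.Agent.TW.RAM.Twist41 Fermat.Agent.TW.RAM.TwistData41 Fermat.Agent.TW.RAM.Fontaine41

namespace Fermat.Agent.TW.RAM.FontaineTower41

noncomputable section

variable (q : ℕ) [Fact q.Prime]

section NoEmbed

variable {K₁ K L M : Type} [Field K₁] [Field K] [Field L] [Field M]
  [Algebra K₁ K] [Algebra K₁ L] [Algebra K L] [Algebra K M] [Algebra L M]
  [IsScalarTower K₁ K L] [IsScalarTower K L M]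

/-- Tower version of `Twist41.isEmpty_algHom_fixedField`: if `L` is normal over a subfield `K₁` of
`K`, `g ∈ Gal(M/K)` extends `τ ≠ 1` in `Gal(L/K)`, then there is no ring homomorphism from `L` to
the fixed field of `g` which is compatible with the structure maps from `K₁`. -/
theorem not_exists_ringHom_fixedField [Normal K₁ L] [FiniteDimensional K₁ L] {g : M ≃ₐ[K] M}
    {τ : L ≃ₐ[K] L} (hgτ : ∀ y : L, g (algebraMap L M y) = algebraMap L M (τ y)) (hτ1 : τ ≠ 1)
    (ψ : L →+* (IntermediateField.fixedField (Subgroup.zpowers g)))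
    (hψ : ∀ a : K₁, ψ (algebraMap K₁ L a) =
      algebraMap K (IntermediateField.fixedField (Subgroup.zpowers g)) (algebraMap K₁ K a)) :
    False := by
  apply hτ1
  let _ : Algebra K₁ M := ((algebraMap K M).comp (algebraMap K₁ K)).toAlgebra
  have htow1 : IsScalarTower K₁ K M := IsScalarTower.of_algebraMap_eq (fun _ => rfl)
  have htow2 : IsScalarTower K₁ L M := IsScalarTower.of_algebraMap_eq (fun a => by
    change algebraMap K M (algebraMap K₁ K a) = algebraMap L M (algebraMap K₁ L a)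
    rw [IsScalarTower.algebraMap_apply K₁ K L, ← IsScalarTower.algebraMap_apply K L M])
  let ψ' : L →ₐ[K₁] M :=
    { toRingHom := (algebraMap (IntermediateField.fixedField (Subgroup.zpowers g)) M).comp ψ
      commutes' := fun a => by
        change algebraMap (IntermediateField.fixedField (Subgroup.zpowers g)) M
          (ψ (algebraMap K₁ L a)) = algebraMap K M (algebraMap K₁ K a)
        rw [hψ]
        rfl }
  have hψ' : ∀ y : L, ψ' y = ((ψ y : IntermediateField.fixedField (Subgroup.zpowers g)) : M) :=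
    fun _ => rfl
  set σ₀ : L →ₐ[K₁] L := ψ'.restrictNormal L with hσ₀
  have h1 : ∀ y : L, algebraMap L M (σ₀ y) = ψ' y := by
    intro y
    have := AlgHom.restrictNormal_commutes ψ' L y
    rw [Algebra.algebraMap_self_apply] at this
    exact this
  have hbij : Function.Bijective σ₀ := Algebra.IsAlgebraic.algHom_bijective σ₀
  have h2 : ∀ y : L, g (ψ' y) = ψ' y := by
    intro y
    have hmem : ψ' y ∈ IntermediateField.fixedField (Subgroup.zpowers g) := by
      rw [hψ']
      exact (ψ y).2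
    rw [IntermediateField.mem_fixedField_iff] at hmem
    exact hmem g (Subgroup.mem_zpowers g)
  ext z
  obtain ⟨y, rfl⟩ := hbij.2 z
  have h3 := h2 y
  rw [← h1 y, hgτ] at h3
  exact (algebraMap L M).injective h3

end NoEmbed

/-! ### The twist, with the fixed field explicit -/

section Explicit

variable {K L M : Type} [Field K] [Field L] [Field M] [Algebra ℚ_[q] K] [Algebra ℚ_[q] L]
  [Algebra ℚ_[q] M] [Algebra K L] [Algebra K M] [Algebra L M] [IsScalarTower ℚ_[q] K L]
  [IsScalarTower ℚ_[q] K M] [IsScalarTower ℚ_[q] L M] [IsScalarTower K L M]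
  [FiniteDimensional ℚ_[q] K] [FiniteDimensional ℚ_[q] L] [FiniteDimensional ℚ_[q] M]

theorem isScalarTower_fixedField (g : M ≃ₐ[K] M) :
    IsScalarTower ℚ_[q] (IntermediateField.fixedField (Subgroup.zpowers g)) M :=
  IsScalarTower.of_algebraMap_eq (fun _ => rfl)

theorem finiteDimensional_fixedField (g : M ≃ₐ[K] M) :
    FiniteDimensional ℚ_[q] (IntermediateField.fixedField (Subgroup.zpowers g)) :=
  have := isScalarTower_fixedField q g
  Module.Finite.of_injective
    ((IsScalarTower.toAlgHom ℚ_[q] (IntermediateField.fixedField (Subgroup.zpowers g))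
      M).toLinearMap)
    (algebraMap (IntermediateField.fixedField (Subgroup.zpowers g)) M).injective

attribute [local instance] isScalarTower_fixedField finiteDimensional_fixedField

/-- The twisted element, as an integer of the fixed field of `g`, with its estimate. -/
theorem exists_mem_fixedField [FiniteDimensional K L] {g : M ≃ₐ[K] M}
    {τ : L ≃ₐ[K] L} (hgτ : ∀ y : L, g (algebraMap L M y) = algebraMap L M (τ y))
    {ℓ : ℕ} (hτℓ : τ ^ ℓ = 1) {d : M} (hd : d ∈ intRing q M) (hgd : (g ^ ℓ) d = d)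
    (hsum : ∑ j ∈ Finset.range ℓ, (g ^ j) d = 1) {x : L} (hx : x ∈ intRing q L) :
    ∃ β : IntermediateField.fixedField (Subgroup.zpowers g),
      β ∈ intRing q (IntermediateField.fixedField (Subgroup.zpowers g)) ∧
      ∀ P : K[X], P.map (algebraMap K L) = ∏ σ : L ≃ₐ[K] L, (X - C (σ x)) →
        snorm q (IntermediateField.fixedField (Subgroup.zpowers g)) (aeval β P) ≤
          ∏ σ : L ≃ₐ[K] L, max (snorm q L (τ x - x)) (snorm q L (σ x - x)) := by
  set F₀ : IntermediateField K M := IntermediateField.fixedField (Subgroup.zpowers g) with hF₀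
  have hβmem : twistElt g ℓ d x ∈ F₀ := by
    rw [hF₀, IntermediateField.mem_fixedField_iff]
    intro h hh
    exact zpow_apply_eq_of_apply_eq (twistElt_fixed hgτ hτℓ hgd x) hh
  refine ⟨⟨twistElt g ℓ d x, hβmem⟩, ?_, ?_⟩
  · rw [← mem_intRing_algHom_iff q F₀ M (IsScalarTower.toAlgHom ℚ_[q] F₀ M)]
    exact twistElt_mem_intRing q g ℓ hd hx
  · intro P hP
    rw [← snorm_algHom q F₀ M (IsScalarTower.toAlgHom ℚ_[q] F₀ M)]
    have h1 : (IsScalarTower.toAlgHom ℚ_[q] F₀ M) (aeval (⟨twistElt g ℓ d x, hβmem⟩ : F₀) P) =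
        aeval (twistElt g ℓ d x) P :=
      (aeval_algebraMap_apply M (⟨twistElt g ℓ d x, hβmem⟩ : F₀) P).symm
    rw [h1]
    exact snorm_aeval_le q (twistElt g ℓ d x) x (snorm_twistElt_sub_le q hgτ hd hsum x) P hP

end Explicit

/-! ### `(P)` in towers -/

section Tower

variable {K₁ K L : Type} [Field K₁] [Field K] [Field L] [Algebra ℚ_[q] K₁] [Algebra ℚ_[q] K]
  [Algebra ℚ_[q] L] [Algebra K₁ K] [Algebra K₁ L] [Algebra K L] [IsScalarTower ℚ_[q] K₁ K]
  [IsScalarTower ℚ_[q] K₁ L] [IsScalarTower ℚ_[q] K L] [IsScalarTower K₁ K L]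
  [FiniteDimensional ℚ_[q] K₁] [FiniteDimensional ℚ_[q] K] [FiniteDimensional ℚ_[q] L]

variable {q}

/-- Property `(P)` for `L/K₁` applied to an extension `F` of an intermediate field `K`. -/
theorem PmHom.exists_ringHom_of_tower {r : ℝ} (hP : PmHom q K₁ L r) (F : Type) [Field F]
    [Algebra ℚ_[q] F] [FiniteDimensional ℚ_[q] F] [Algebra K F] [IsScalarTower ℚ_[q] K F]
    (η : intRing q L →+* (intRing q F ⧸ ballIdeal q F r))
    (hη : ∀ a : intRing q K, η (intRingMap q K L a) =
      Ideal.Quotient.mk (ballIdeal q F r) (intRingMap q K F a)) :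
    ∃ ψ : L →+* F, ∀ a : K₁, ψ (algebraMap K₁ L a) = algebraMap K F (algebraMap K₁ K a) := by
  let _ : Algebra K₁ F := ((algebraMap K F).comp (algebraMap K₁ K)).toAlgebra
  have htow : IsScalarTower ℚ_[q] K₁ F := IsScalarTower.of_algebraMap_eq (fun a => by
    change algebraMap ℚ_[q] F a = algebraMap K F (algebraMap K₁ K (algebraMap ℚ_[q] K₁ a))
    rw [← IsScalarTower.algebraMap_apply ℚ_[q] K₁ K, ← IsScalarTower.algebraMap_apply ℚ_[q] K F])
  obtain ⟨ψ⟩ := hP F η (fun a => by
    have h1 : intRingMap q K₁ L a = intRingMap q K L (intRingMap q K₁ K a) :=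
      Subtype.ext (IsScalarTower.algebraMap_apply K₁ K L a)
    have h2 : intRingMap q K₁ F a = intRingMap q K F (intRingMap q K₁ K a) := Subtype.ext rfl
    rw [h1, h2, hη])
  exact ⟨ψ.toRingHom, fun a => ψ.commutes a⟩

end Tower

/-! ### The theorem in towers -/

section Main

variable {K₁ K L : Type} [Field K₁] [Field K] [Field L] [Algebra ℚ_[q] K₁] [Algebra ℚ_[q] K]
  [Algebra ℚ_[q] L] [Algebra K₁ K] [Algebra K₁ L] [Algebra K L] [IsScalarTower ℚ_[q] K₁ K]
  [IsScalarTower ℚ_[q] K₁ L] [IsScalarTower ℚ_[q] K L] [IsScalarTower K₁ K L]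
  [FiniteDimensional ℚ_[q] K₁] [FiniteDimensional ℚ_[q] K] [FiniteDimensional ℚ_[q] L]

variable {q}

attribute [local instance] isScalarTower_fixedField finiteDimensional_fixedField

theorem PmHom.lt_prod_of_tower_of_pow_prime_eq_one [IsGalois K L] [FiniteDimensional K L]
    [Normal K₁ L] {r : ℝ} (hP : PmHom q K₁ L r) (h : resDeg q K L = 1) {π : L}
    (hπ : IsUniformizer q L π) {τ : L ≃ₐ[K] L} (hτ1 : τ ≠ 1) {ℓ : ℕ} (hℓ : ℓ.Prime)
    (hτℓ : τ ^ ℓ = 1) :
    r < ∏ σ : L ≃ₐ[K] L, max (snorm q L (τ π - π)) (snorm q L (σ π - π)) := by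
  by_contra hle
  rw [not_lt] at hle
  have hpos : 0 ≤ ∏ σ : L ≃ₐ[K] L, max (snorm q L (τ π - π)) (snorm q L (σ π - π)) :=
    Finset.prod_nonneg (fun σ _ => le_max_of_le_left (snorm_nonneg q L _))
  have hr : 0 ≤ r := hpos.trans hle
  have hfd1 : FiniteDimensional K₁ L := finiteDimensional_tower q K₁ L
  obtain ⟨M, _, _, _, _, _, _, _, _, g, d, hgτ, hd, hgd, hsum⟩ := exists_twistData q K L h hℓ τ
  obtain ⟨β, hβ, hest⟩ := exists_mem_fixedField q hgτ hτℓ hd hgd hsum hπ.1
  have hprod := minpoly_map_eq_prod (adjoin_simple_eq_top q K L h hπ)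
  have hroot : snorm q (IntermediateField.fixedField (Subgroup.zpowers g))
      (aeval β (minpoly K π)) ≤ r := (hest _ hprod).trans hle
  obtain ⟨η, hη, -⟩ := exists_hom_of_root q K L
    (IntermediateField.fixedField (Subgroup.zpowers g)) h hπ ⟨β, hβ⟩ hr hroot
  obtain ⟨ψ, hψ⟩ := PmHom.exists_ringHom_of_tower hP
    (IntermediateField.fixedField (Subgroup.zpowers g)) η hη
  exact not_exists_ringHom_fixedField hgτ hτ1 ψ hψ

/-- **Fontaine's Proposition 1.5 (ii), sharp form, in towers.**  `K₁ ⊆ K ⊆ L` finite extensions of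
`ℚ_q`, `L/K₁` normal, `L/K` totally ramified Galois (e.g. `K` the inertia field of `L/K₁`), `π` a
uniformizer of `L`, `τ ≠ 1` in `Gal(L/K)`.  If `L/K₁` has property `(P)` for the radius `r`, then
`r < ∏_{σ ∈ Gal(L/K)} max ‖τ π - π‖ ‖σ π - π‖`. -/
theorem PmHom.lt_prod_of_tower [IsGalois K L] [FiniteDimensional K L] [Normal K₁ L] {r : ℝ}
    (hP : PmHom q K₁ L r) (h : resDeg q K L = 1) {π : L} (hπ : IsUniformizer q L π)
    {τ : L ≃ₐ[K] L} (hτ1 : τ ≠ 1) :
    r < ∏ σ : L ≃ₐ[K] L, max (snorm q L (τ π - π)) (snorm q L (σ π - π)) := by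
  have hn1 : orderOf τ ≠ 1 := fun h1 => hτ1 (orderOf_eq_one_iff.1 h1)
  have hn0 : 0 < orderOf τ := orderOf_pos τ
  have hℓ : (orderOf τ).minFac.Prime := Nat.minFac_prime hn1
  have hdvd : (orderOf τ).minFac ∣ orderOf τ := Nat.minFac_dvd _
  set ℓ := (orderOf τ).minFac with hℓdef
  set m := orderOf τ / ℓ with hm
  have hmℓ : m * ℓ = orderOf τ := Nat.div_mul_cancel hdvd
  have hm0 : m ≠ 0 := by
    intro h0
    rw [h0, zero_mul] at hmℓ
    omega
  have hmlt : m < orderOf τ := Nat.div_lt_self hn0 hℓ.one_lt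
  have hτ'1 : τ ^ m ≠ 1 := pow_ne_one_of_lt_orderOf hm0 hmlt
  have hτ'ℓ : (τ ^ m) ^ ℓ = 1 := by rw [← pow_mul, hmℓ, pow_orderOf_eq_one]
  refine (PmHom.lt_prod_of_tower_of_pow_prime_eq_one hP h hπ hτ'1 hℓ hτ'ℓ).trans_le ?_
  refine Finset.prod_le_prod (fun σ _ => le_max_of_le_left (snorm_nonneg q L _)) (fun σ _ => ?_)
  exact max_le_max (snorm_pow_apply_sub_le q K L τ π m) le_rfl

end Main

end

end Fermat.Agent.TW.RAM.FontaineTower41
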