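/-
Program TW (S56), work package WP7 (flat local bound), chapter RAM, brick B4 — helper41.

FONTAINE'S BOUND IN CONSUMER FORM (for brick B7, helper83): general finite Galois `L/ℚ_q`, in the
language of `HerbrandAbs90.LowerIndex` / `GalGen83.lowerIdx` / `Tame83.inertia`.

* `snorm_apply_aeval_sub_le`, `snorm_apply_sub_le_unif` : `‖σ z - z‖ ≤ ‖σ π - π‖` for `z ∈ 𝒪_L`,
  `σ ∈ Gal(L/K)`, `L/K` totally ramified with uniformizer `π`;
* `inertiaField q L`, `inertiaEquiv : inertia q L ≃* Gal(L/inertiaField)`,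
  `resDeg_inertiaField : resDeg q (inertiaField q L) L = 1`;
* `snorm_gen_eq_snorm_unif` : on inertia, `‖τ xL - xL‖ = ‖τ π - π‖` (`xL` a `ℤ_q`-generator of `𝒪_L`);
* `lt_upper_comap_inertia` : `PmHom q ℚ_[q] L r → r < upper τ` (`τ ≠ 1` in inertia);
* `boundedBy_of_forall_PmHom` : `(∀ r, 0 ≤ r → r < s → PmHom q ℚ_[q] L r) → s ≤ 1 →
    (lowerIdx q ℚ_[q] L xL).BoundedBy s`;
* `boundedBy_of_fontaine` : `(∀ r ≥ 0, r^(p-1) < p^(-p) → PmHom p ℚ_[p] L r) → s^(p-1) ≤ p^(-p) →
    (lowerIdx p ℚ_[p] L xL).BoundedBy s`     — **B4's deliverable**.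
-/
import Mathlib
import Fermat.Agent.TW.RAM.FontaineTower41
import Fermat.Agent.TW.FF.GalGen83
import Fermat.Agent.TW.FF.Tame83
import Fermat.Agent.TW.Ram.HerbrandAbs90
import Fermat.Agent.TW.Ram.HerbrandTame90
import Fermat.Agent.PT.LOC.ResNormTrace11

set_option autoImplicit false
set_option linter.unusedSectionVars false

open scoped Fermat.Agent.PT.LOC.Interface12 Fermat.Agent.PT.LOC.StructureTower27 NNReal
open Fermat.Agent.PT.LOC.Interface12 Fermat.Agent.PT.LOC.Structure14
  Fermat.Agent.PT.LOC.StructureNorm14 Fermat.Agent.PT.LOC.StructureTower27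
  Fermat.Agent.PT.LOC.StructureTowerEF27 Fermat.Agent.PT.LOC.RootsUnity14
  Fermat.Agent.PT.LOC.Unram11 Fermat.Agent.PT.LOC.ResNormTrace11 Polynomial
  Fermat.Agent.TW.RAM.Pm41 Fermat.Agent.TW.RAM.Monogenic41 Fermat.Agent.TW.RAM.PmPoly41
  Fermat.Agent.TW.RAM.Twist41 Fermat.Agent.TW.RAM.FontaineTower41
  Fermat.Agent.TW.Ram.HerbrandAbs90 Fermat.Agent.TW.Ram.HerbrandTame90
  Fermat.Agent.TW.FF.GalGen83 Fermat.Agent.TW.FF.Tame83

namespace Fermat.Agent.TW.RAM.FontaineBound41

noncomputable section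

variable (q : ℕ) [Fact q.Prime]

/-! ### Polynomial expressions and automorphisms -/

section PolyDiff

variable (K L : Type) [Field K] [Field L] [Algebra ℚ_[q] K] [Algebra ℚ_[q] L] [Algebra K L]
  [IsScalarTower ℚ_[q] K L] [FiniteDimensional ℚ_[q] K] [FiniteDimensional ℚ_[q] L]

/-- `‖σ (g(x)) - g(x)‖ ≤ ‖σ x - x‖` for `g ∈ 𝒪_K[X]`, `x ∈ 𝒪_L`, `σ ∈ Gal(L/K)`. -/
theorem snorm_apply_aeval_sub_le (σ : L ≃ₐ[K] L) (x : intRing q L) (g : (intRing q K)[X]) :
    snorm q L (σ ((aeval x g : intRing q L) : L) - ((aeval x g : intRing q L) : L)) ≤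
      snorm q L (σ (x : L) - (x : L)) := by
  have hσx : σ (x : L) ∈ intRing q L := (mem_intRing_galois_iff q K L σ _).2 x.2
  set a : intRing q L := ⟨σ (x : L), hσx⟩ with ha
  set P : (intRing q L)[X] := g.map (algebraMap (intRing q K) (intRing q L)) with hP
  obtain ⟨c, hc⟩ := Polynomial.sub_dvd_eval_sub a x P
  have hPb : P.eval x = aeval x g := by
    rw [hP, Polynomial.eval_map_algebraMap]
  have hPa : ((P.eval a : intRing q L) : L) = σ ((aeval x g : intRing q L) : L) := by
    rw [hP, Polynomial.eval_map_algebraMap]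
    have h1 : ((aeval a g : intRing q L) : L) = aeval (a : L) g :=
      (aeval_algebraMap_apply L a g).symm
    have h2 : ((aeval x g : intRing q L) : L) = aeval (x : L) g :=
      (aeval_algebraMap_apply L x g).symm
    rw [h1, h2]
    have h3 := Polynomial.aeval_algHom_apply
      ((σ : L →ₐ[K] L).restrictScalars (intRing q K)) (x : L) g
    exact h3
  have hE : σ ((aeval x g : intRing q L) : L) - ((aeval x g : intRing q L) : L) =
      (σ (x : L) - (x : L)) * (c : L) := by
    have := congrArg (fun w : intRing q L => (w : L)) hc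
    simp only [Subalgebra.coe_sub, Subalgebra.coe_mul] at this
    rw [hPa, hPb] at this
    exact this
  rw [hE, snorm_mul]
  have hc1 : snorm q L (c : L) ≤ 1 := (mem_intRing_iff q L _).1 c.2
  calc snorm q L (σ (x : L) - (x : L)) * snorm q L (c : L)
      ≤ snorm q L (σ (x : L) - (x : L)) * 1 :=
        mul_le_mul_of_nonneg_left hc1 (snorm_nonneg q L _)
    _ = snorm q L (σ (x : L) - (x : L)) := mul_one _

/-- If `L/K` is totally ramified with uniformizer `π`, then `‖σ z - z‖ ≤ ‖σ π - π‖` for every integer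
`z` of `L` and every `σ ∈ Gal(L/K)`. -/
theorem snorm_apply_sub_le_unif (h : resDeg q K L = 1) {π : L} (hπ : IsUniformizer q L π)
    (σ : L ≃ₐ[K] L) {z : L} (hz : z ∈ intRing q L) :
    snorm q L (σ z - z) ≤ snorm q L (σ π - π) := by
  obtain ⟨g, hg⟩ := (powerBasis q K L h hπ).exists_eq_aeval' (⟨z, hz⟩ : intRing q L)
  rw [powerBasis_gen] at hg
  have := snorm_apply_aeval_sub_le q K L σ (unifInt q L hπ) g
  rw [← hg] at this
  exact this

end PolyDiff

/-! ### The inertia field -/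

section Inertia

variable (L : Type) [Field L] [Algebra ℚ_[q] L] [FiniteDimensional ℚ_[q] L] [IsGalois ℚ_[q] L]

/-- The inertia field of `L/ℚ_q` : the fixed field of the inertia subgroup `Tame83.inertia`. -/
def inertiaField : IntermediateField ℚ_[q] L := IntermediateField.fixedField (inertia q L)

/-- `Gal(L/inertia field) ≃ inertia subgroup`. -/
def inertiaEquiv : inertia q L ≃* (L ≃ₐ[inertiaField q L] L) :=
  IntermediateField.subgroupEquivAlgEquiv (inertia q L)

theorem inertiaEquiv_apply (σ : inertia q L) (x : L) :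
    inertiaEquiv q L σ x = (σ : L ≃ₐ[ℚ_[q]] L) x := rfl

theorem inertiaEquiv_symm_apply (τ : L ≃ₐ[inertiaField q L] L) (x : L) :
    (((inertiaEquiv q L).symm τ : inertia q L) : L ≃ₐ[ℚ_[q]] L) x = τ x := by
  have := inertiaEquiv_apply q L ((inertiaEquiv q L).symm τ) x
  rw [MulEquiv.apply_symm_apply] at this
  exact this.symm

/-- Automorphisms over the inertia field move integers by less than `1`. -/
theorem snorm_apply_sub_lt_one (τ : L ≃ₐ[inertiaField q L] L) {z : L} (hz : z ∈ intRing q L) :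
    snorm q L (τ z - z) < 1 := by
  have h1 := ((inertiaEquiv q L).symm τ).2
  rw [mem_inertia_iff] at h1
  have h2 := h1 z hz
  rw [inertiaEquiv_symm_apply] at h2
  exact h2

/-- `L` is totally ramified over its inertia field. -/
theorem resDeg_inertiaField : resDeg q (inertiaField q L) L = 1 := by
  rw [resDeg_eq_finrank_resF, ← IsGalois.card_aut_eq_finrank]
  have htriv : ∀ f : resF q L ≃ₐ[resF q (inertiaField q L)] resF q L, f = 1 := by
    intro f
    obtain ⟨τ, rfl⟩ := redHom_surjective q (inertiaField q L) L f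
    ext y
    obtain ⟨x, rfl⟩ := Ideal.Quotient.mk_surjective y
    rw [redHom_mk, AlgEquiv.one_apply]
    apply (Ideal.Quotient.eq).2
    rw [mem_mI_iff_snorm]
    have h2 : ((τ • x - x : intRing q L) : L) = τ (x : L) - x := by
      rw [Subalgebra.coe_sub, coe_smul_intRing]
    rw [h2]
    exact snorm_apply_sub_lt_one q L τ x.2
  have : Subsingleton (resF q L ≃ₐ[resF q (inertiaField q L)] resF q L) :=
    ⟨fun a b => (htriv a).trans (htriv b).symm⟩
  exact Nat.card_unique

/-- On the inertia subgroup, the lower index computed with a `ℤ_q`-generator `xL` of `𝒪_L` equals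
the one computed with a uniformizer. -/
theorem snorm_gen_eq_snorm_unif {xL : L} (hxL : IsGen q L xL) {π : L} (hπ : IsUniformizer q L π)
    (τ : L ≃ₐ[inertiaField q L] L) :
    snorm q L (τ xL - xL) = snorm q L (τ π - π) := by
  apply le_antisymm
  · exact snorm_apply_sub_le_unif q (inertiaField q L) L (resDeg_inertiaField q L) hπ τ hxL.1
  · have := lowerIdx_d_le (inertiaField q L) hxL τ hπ.1
    exact this

variable {q L}

/-- **Fontaine's bound on the inertia subgroup**, in the language of `HerbrandAbs90`/`GalGen83`: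
if `L/ℚ_q` has property `(P)` for the radius `r`, then `r` is smaller than the upper index (computed
in the inertia subgroup) of every non-trivial element of the inertia subgroup. -/
theorem lt_upper_comap_inertia [Fintype (inertia q L)] {xL : L} (hxL : IsGen q L xL) {r : ℝ}
    (hP : PmHom q ℚ_[q] L r) (τ : inertia q L) (hτ : τ ≠ 1) :
    r < (((comap (inertia q L).subtype (lowerIdx q ℚ_[q] L xL)).upper τ : ℝ≥0) : ℝ) := by
  obtain ⟨π, hπ⟩ := exists_isUniformizer q L
  have hτ' : inertiaEquiv q L τ ≠ 1 := fun h => hτ ((inertiaEquiv q L).map_eq_one_iff.1 h)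
  have hmain := PmHom.lt_prod_of_tower (K₁ := ℚ_[q]) (K := inertiaField q L) hP
    (resDeg_inertiaField q L) hπ hτ'
  refine hmain.trans_le (le_of_eq ?_)
  unfold LowerIndex.upper LowerIndex.phi LowerIndex.phiOn
  rw [NNReal.coe_prod]
  refine (Fintype.prod_equiv (inertiaEquiv q L).toEquiv _ _ (fun σ => ?_)).symm
  rw [NNReal.coe_max, comap_d, comap_d, coe_lowerIdx_d, coe_lowerIdx_d, max_comm]
  have h1 := snorm_gen_eq_snorm_unif q L hxL hπ (inertiaEquiv q L σ)
  have h2 := snorm_gen_eq_snorm_unif q L hxL hπ (inertiaEquiv q L τ)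
  simp only [inertiaEquiv_apply] at h1 h2
  rw [Subgroup.coe_subtype, h2, h1]
  rfl

/-- **Fontaine's bound, consumer form** (helper83's `lowerIdx`, helper90's `BoundedBy`): if `L/ℚ_q`
(finite Galois) has property `(P)` for every radius `0 ≤ r < s`, `s ≤ 1`, then the ramification of
`L/ℚ_q` is bounded by `s`: `s ≤ upper τ` for all `τ ≠ 1` in `Gal(L/ℚ_q)`. -/
theorem boundedBy_of_forall_PmHom {xL : L} (hxL : IsGen q L xL) {s : ℝ≥0} (hs1 : s ≤ 1)
    (hP : ∀ r : ℝ, 0 ≤ r → r < s → PmHom q ℚ_[q] L r) :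
    (lowerIdx q ℚ_[q] L xL).BoundedBy s := by
  classical
  have : Fintype (inertia q L) := Fintype.ofFinite _
  refine boundedBy_of_inertia _ (fun σ => lowerIdx_d_le_one ℚ_[q] hxL.1 σ) (inertia q L)
    (fun σ hσ => (d_lt_one_iff hxL σ).1 hσ) hs1 ?_
  intro τ hτ
  by_contra hlt
  rw [not_le] at hlt
  have h1 := lt_upper_comap_inertia hxL
    (hP _ (NNReal.coe_nonneg _) (NNReal.coe_lt_coe.2 hlt)) τ hτ
  exact lt_irrefl _ h1

/-- **Fontaine's bound with Fontaine's constant**: if `L/ℚ_p` has property `(P)` for all radii `r ≥ 0`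
with `r ^ (p - 1) < p ^ (-p)` (i.e. `m > p/(p-1)`), then its ramification is bounded by every `s`
with `s ^ (p - 1) ≤ p ^ (-p)` (i.e. by `s₀ = p ^ (-p/(p-1))`). -/
theorem boundedBy_of_fontaine {xL : L} (hxL : IsGen q L xL) {s : ℝ≥0}
    (hs : (s : ℝ) ^ (q - 1) ≤ (q : ℝ) ^ (-(q : ℤ)))
    (hP : ∀ r : ℝ, 0 ≤ r → r ^ (q - 1) < (q : ℝ) ^ (-(q : ℤ)) → PmHom q ℚ_[q] L r) :
    (lowerIdx q ℚ_[q] L xL).BoundedBy s := by
  have hq : q.Prime := Fact.out
  have hq1 : q - 1 ≠ 0 := by have := hq.two_le; omega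
  have hqpos : (1 : ℝ) < q := by exact_mod_cast hq.one_lt
  have hle1 : (q : ℝ) ^ (-(q : ℤ)) ≤ 1 := by
    rw [zpow_neg, zpow_natCast]
    exact inv_le_one_of_one_le₀ (one_le_pow₀ hqpos.le)
  have hs1 : s ≤ 1 := by
    have h1 : (s : ℝ) ^ (q - 1) ≤ 1 := hs.trans hle1
    have h2 := (pow_le_one_iff_of_nonneg (NNReal.coe_nonneg s) hq1).1 h1
    exact_mod_cast h2
  refine boundedBy_of_forall_PmHom hxL hs1 (fun r hr hrs => hP r hr ?_)
  exact (pow_lt_pow_left₀ hrs hr hq1).trans_le hs

end Inertia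

end

end Fermat.Agent.TW.RAM.FontaineBound41
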