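/-
Program TW (S56), work package WP7 (flat local bound), brick B7 last step — helper41.

THEOREM KF IS PROVED.  `KFBridge92.LocKF p` (helper92's type-level form of the Kummer form of
Fontaine's bound) follows from `KFCore83.kf_core` (helper83) fed with Fontaine's bound
`FontaineBound41.boundedBy_of_fontaine` (helper41, B4), and hence
`Spec72.KummerFontaine p` (helper72's contract) by `KFBridge92.kummerFontaine_of_locKF`.

* `ramIdx_eq_of_algEquiv`  : `e(E'/ℚ_p) = e(E/ℚ_p)` for `E ≃ₐ[ℚ_p] E'`;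
* `pmHom_of_algEquiv`      : property `(P)` transfers along `E ≃ₐ[ℚ_p] E'`;
* `locKF`                  : `KFBridge92.LocKF p`;
* `kummerFontaine`         : `Spec72.KummerFontaine p`.
-/
import Mathlib
import Fermat.Agent.TW.FF.KFCore83
import Fermat.Agent.TW.FF.KFBridge92
import Fermat.Agent.TW.RAM.FontaineBound41

set_option autoImplicit false
set_option linter.unusedSectionVars false
set_option linter.style.haveILetI false

open scoped Fermat.Agent.PT.LOC.Interface12 NNReal
open Fermat.Agent.PT.LOC.Interface12 Fermat.Agent.PT.LOC.Structure14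
  Fermat.Agent.PT.LOC.StructureNorm14 Fermat.Agent.PT.LOC.StructureTower27
  Fermat.Agent.PT.LOC.StructureTowerEF27
open Fermat.Agent.TW.Ram.HerbrandAbs90
open Fermat.Agent.TW.FF.GalGen83 Fermat.Agent.TW.FF.KFCore83 Fermat.Agent.TW.FF.KFBridge92
open Fermat.Agent.TW.RAM.Pm41 Fermat.Agent.TW.RAM.FontaineBound41

namespace Fermat.Agent.TW.RAM.LocKF41

noncomputable section

variable {p : ℕ} [Fact p.Prime]

section Transfer

variable {E E' : Type} [Field E] [Field E'] [Algebra ℚ_[p] E] [Algebra ℚ_[p] E']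
  [FiniteDimensional ℚ_[p] E] [FiniteDimensional ℚ_[p] E']

/-- The ramification index over `ℚ_p` is invariant under isomorphisms. -/
theorem ramIdx_eq_of_algEquiv (e : E ≃ₐ[ℚ_[p]] E') :
    ramIdx p ℚ_[p] E' = ramIdx p ℚ_[p] E := by
  letI : Algebra E E' := (e : E →+* E').toAlgebra
  haveI : IsScalarTower ℚ_[p] E E' :=
    IsScalarTower.of_algebraMap_eq (fun x => (e.commutes x).symm)
  have h1 := ramIdx_tower p ℚ_[p] E E'
  have h2 := ramIdx_mul_resDeg p E E'
  have h3 : Module.finrank E E' = 1 := by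
    have h4 := Module.finrank_mul_finrank ℚ_[p] E E'
    have h5 : Module.finrank ℚ_[p] E = Module.finrank ℚ_[p] E' := e.toLinearEquiv.finrank_eq
    have h6 : 0 < Module.finrank ℚ_[p] E := Module.finrank_pos
    rw [← h5] at h4
    nth_rewrite 2 [← mul_one (Module.finrank ℚ_[p] E)] at h4
    exact Nat.eq_of_mul_eq_mul_left h6 h4
  rw [h3] at h2
  have h7 : ramIdx p E E' = 1 := Nat.eq_one_of_mul_eq_one_right h2
  rw [h1, h7, mul_one]

/-- Property `(P)` is invariant under isomorphisms of the top field. -/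
theorem pmHom_of_algEquiv (e : E ≃ₐ[ℚ_[p]] E') {r : ℝ} (h : PmHom p ℚ_[p] E r) :
    PmHom p ℚ_[p] E' r := by
  letI : Algebra E E' := (e : E →+* E').toAlgebra
  haveI : IsScalarTower ℚ_[p] E E' :=
    IsScalarTower.of_algebraMap_eq (fun x => (e.commutes x).symm)
  intro F i1 i2 i3 i4 i5 η hη
  obtain ⟨f⟩ := @h F i1 i2 i3 i4 i5
      (η.comp (intRingMap p E E' : intRing p E →+* intRing p E')) (fun a => by
    rw [RingHom.comp_apply, ← hη a]
    congr 1
    apply Subtype.ext
    show algebraMap E E' (algebraMap ℚ_[p] E (a : ℚ_[p])) = algebraMap ℚ_[p] E' (a : ℚ_[p])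
    exact (IsScalarTower.algebraMap_apply ℚ_[p] E E' _).symm)
  exact ⟨f.comp (e.symm : E' →ₐ[ℚ_[p]] E)⟩

end Transfer

/-- **Theorem KF on the PT/LOC model**: the last step, `KFCore83.kf_core` fed with Fontaine's bound
`FontaineBound41.boundedBy_of_fontaine`. -/
theorem locKF : LocKF p := by
  intro _hp2 K L T _ _ _ _ _ _ _ _ _ _ _ _ _ _ _ _ hLK hPm htame hζ u z hu hz
  classical
  obtain ⟨ζ, hζ⟩ := hζ
  have hp : p.Prime := Fact.out
  -- the images of `L` and `K` in `T`
  let fL : L →ₐ[ℚ_[p]] T := IsScalarTower.toAlgHom ℚ_[p] L T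
  let fK : K →ₐ[ℚ_[p]] T := IsScalarTower.toAlgHom ℚ_[p] K T
  let L' : IntermediateField ℚ_[p] T := fL.fieldRange
  let K' : IntermediateField ℚ_[p] T := fK.fieldRange
  let eL : L ≃ₐ[ℚ_[p]] L' := AlgEquiv.ofInjectiveField fL
  let eK : K ≃ₐ[ℚ_[p]] K' := AlgEquiv.ofInjectiveField fK
  have heL : ∀ x : L, ((eL x : L') : T) = algebraMap L T x := fun _ => rfl
  have heK : ∀ x : K, ((eK x : K') : T) = algebraMap K T x := fun _ => rfl
  haveI : IsGalois ℚ_[p] L' := IsGalois.of_algEquiv eL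
  haveI : IsGalois ℚ_[p] K' := IsGalois.of_algEquiv eK
  -- `L' K' = T`
  have hsup : L' ⊔ K' = ⊤ := by
    have h1 : (L' ⊔ K').fixingSubgroup = ⊥ := by
      rw [eq_bot_iff]
      intro σ hσ
      rw [IntermediateField.mem_fixingSubgroup_iff] at hσ
      rw [Subgroup.mem_bot]
      refine hLK σ (fun x => ?_) (fun x => ?_)
      · exact hσ _ ((le_sup_left : L' ≤ L' ⊔ K') ⟨x, rfl⟩)
      · exact hσ _ ((le_sup_right : K' ≤ L' ⊔ K') ⟨x, rfl⟩)
    have h2 := IsGalois.fixedField_fixingSubgroup (L' ⊔ K')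
    rw [h1, IntermediateField.fixedField_bot] at h2
    exact h2.symm
  have htame' : ¬ p ∣ ramIdx p ℚ_[p] K' := by rwa [ramIdx_eq_of_algEquiv eK]
  have hζ' : IsPrimitiveRoot (eK ζ) p := hζ.map_of_injective eK.injective
  have hL' : ∀ xL : L', IsGen p L' xL →
      (lowerIdx p ℚ_[p] L' xL).BoundedBy (normVal p K' (eK ζ - 1) * (p : ℝ≥0)⁻¹) := by
    intro xL hxL
    refine boundedBy_of_fontaine hxL ?_ (fun r hr0 hr => pmHom_of_algEquiv eL (hPm r hr0 hr))
    have h1 := normVal_zeta_sub_one_pow hζ'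
    have hp1 : 1 ≤ p := hp.one_lt.le
    have hppos : (0 : ℝ) < p := by exact_mod_cast hp.pos
    rw [NNReal.coe_mul, mul_pow, ← NNReal.coe_pow, h1]
    push_cast
    rw [← pow_succ', Nat.sub_add_cancel hp1, zpow_neg, zpow_natCast, inv_pow]
  obtain ⟨a, y, ha, hy0, huy⟩ := kf_core T L' K' hsup htame' (eK ζ) hζ' hL' (eK u)
    (fun h => hu (by simpa using h)) z (by rw [hz, heK])
  refine ⟨eK.symm a, eK.symm y, ?_, ?_, ?_⟩
  · rw [← snorm_algHom p K K' (eK : K →ₐ[ℚ_[p]] K') (eK.symm a)]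
    simpa using ha
  · intro h
    exact hy0 (by simpa using h)
  · apply eK.injective
    rw [huy]
    simp

/-- **Theorem KF** in the form of helper72's contract `Spec72.KummerFontaine`. -/
theorem kummerFontaine : Fermat.Agent.TW.FF.Spec72.KummerFontaine p :=
  kummerFontaine_of_locKF locKF

end

end Fermat.Agent.TW.RAM.LocKF41
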